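import Fermat.Agent.AxKochen.Partial

/-!
# Adjoining residues and values
-/

set_option autoImplicit false

noncomputable section

namespace Fermat.Agent.AxKochen

universe u v w

variable {K L : Type u} {k : Type v} {Γ : Type w} [Field K] [Field L] [Field k] [AddCommGroup Γ]
  [LinearOrder Γ] [IsOrderedAddMonoid Γ] {D : HenselData K k Γ} {E : HenselData L k Γ}
  {P : Subring (K × L)}

/-- The pair attached to a term `p ι(c) s(γ)`. -/
def skelTerm (D : HenselData K k Γ) (E : HenselData L k Γ) (t : (K × L) × k × Γ) : K × L :=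
  t.1 * (D.ι t.2.1, E.ι t.2.1) * (D.s t.2.2, E.s t.2.2)

/-- **Valuations agree on sums of terms.** -/
theorem compat_terms (hP : Compat D E P) (hI : InvClosed P) (hS : Skel D E P) (n : ℕ) :
    ∀ t : Fin n → (K × L) × k × Γ, (∀ l, (t l).1 ∈ P) →
      D.v (∑ l, skelTerm D E (t l)).1 = E.v (∑ l, skelTerm D E (t l)).2 := by
  classical
  induction n with
  | zero => simp
  | succ n ih =>
    intro t ht
    -- terms which vanish can be dropped
    have drop : ∀ l, skelTerm D E (t l) = 0 →
        D.v (∑ l, skelTerm D E (t l)).1 = E.v (∑ l, skelTerm D E (t l)).2 := fun l hl => by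
      rw [Fin.sum_univ_succAbove _ l, hl, zero_add]
      exact ih (fun j => t (l.succAbove j)) fun j => ht _
    by_cases hz : ∃ l, (t l).1.1 = 0 ∨ (t l).2.1 = 0
    · obtain ⟨l, hl⟩ := hz
      refine drop l ?_
      rcases hl with hl | hl
      · ext <;> simp [skelTerm, hl, (hP.eq_zero_iff (ht l)).1 hl]
      · ext <;> simp [skelTerm, hl]
    push Not at hz
    have he : ∀ l, ∃ α : Γ, D.v (t l).1.1 = α := fun l => exists_val D.v (hz l).1
    choose α hα using he
    obtain ⟨m, -, hm⟩ := Finset.univ.exists_min_image (fun l => α l + (t l).2.2)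
      Finset.univ_nonempty
    set e := α m + (t m).2.2
    set T := Finset.univ.filter fun l => α l + (t l).2.2 = e
    -- the normalised coefficient of a term of least value
    set q : Fin (n + 1) → K × L := fun l =>
      (t l).1 * (t m).1⁻¹ * (D.s (α m - α l), E.s (α m - α l))
    have hsP : ∀ l, (D.s (α m - α l), E.s (α m - α l)) ∈ P := fun l => by
      refine hS.1 ((t m).1 * (t l).1⁻¹) (mul_mem (ht m) (hI _ (ht l))) _ ?_
      rw [Prod.fst_mul, Prod.fst_inv, D.v.map_mul, hα m, val_inv D.v (hα l), ← WithTop.coe_add,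
        sub_eq_add_neg]
    have hqP : ∀ l, q l ∈ P := fun l => mul_mem (mul_mem (ht l) (hI _ (ht m))) (hsP l)
    have hq0 : ∀ l, D.v (q l).1 = 0 := fun l => by
      simp only [q, Prod.fst_mul, Prod.fst_inv]
      rw [D.v.map_mul, D.v.map_mul, hα l, val_inv D.v (hα m), D.v_s, ← WithTop.coe_add,
        ← WithTop.coe_add, WithTop.coe_eq_zero]
      abel
    choose r hr hrP using fun l => hS.2 (q l) (hqP l) (hq0 l)
    have hr' : ∀ l, 0 < E.v ((q l).2 - E.ι (r l)) := fun l => by
      have := hP _ (sub_mem (hqP l) (hrP l))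
      exact this ▸ hr l
    have hdiv : ∀ l ∈ T, skelTerm D E (t l) =
        (t m).1 * q l * (D.ι (t l).2.1, E.ι (t l).2.1) * (D.s (t m).2.2, E.s (t m).2.2) := by
      intro l hl
      have hl' : α m - α l + (t m).2.2 = (t l).2.2 := by
        rw [sub_add_eq_add_sub, show α m + (t m).2.2 = α l + (t l).2.2 from
          ((Finset.mem_filter.1 hl).2).symm]
        abel
      have h1 : (t m).1.2 ≠ 0 := fun h => (hz m).1 ((hP.eq_zero_iff (ht m)).2 h)
      ext
      · simp only [skelTerm, q, Prod.fst_mul, Prod.fst_inv]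
        rw [← hl', D.s_add]
        field_simp [(hz m).1]
      · simp only [skelTerm, q, Prod.snd_mul, Prod.snd_inv]
        rw [← hl', E.s_add]
        field_simp [h1]
    by_cases hc : ∑ l ∈ T, r l * (t l).2.1 = 0
    · -- the term `m` is a combination of the others
      have hmT : m ∈ T := by simp [T, e]
      have hqm : q m = 1 := by
        have h1 : (t m).1.2 ≠ 0 := fun h => (hz m).1 ((hP.eq_zero_iff (ht m)).2 h)
        ext <;> simp [q, D.s_zero, E.s_zero, (hz m).1, h1]
      have hrm : r m = 1 := D.ι_unique (hr m) (by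
        rw [hqm, map_one, Prod.fst_one, sub_self, D.v.map_zero]; exact WithTop.coe_lt_top _)
      set t' : Fin n → (K × L) × k × Γ := fun j =>
        (if m.succAbove j ∈ T then
          (t (m.succAbove j)).1 -
            (t m).1 * (D.ι (r (m.succAbove j)), E.ι (r (m.succAbove j))) *
              (D.s (α (m.succAbove j) - α m), E.s (α (m.succAbove j) - α m))
        else (t (m.succAbove j)).1, (t (m.succAbove j)).2)
      have ht' : ∀ j, (t' j).1 ∈ P := fun j => by
        dsimp only [t']
        split_ifs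
        · refine sub_mem (ht _) (mul_mem (mul_mem (ht m) (hrP _)) (hS.1 _
            (mul_mem (ht (m.succAbove j)) (hI _ (ht m))) _ ?_))
          rw [Prod.fst_mul, Prod.fst_inv, D.v.map_mul, hα, val_inv D.v (hα m), ← WithTop.coe_add,
            sub_eq_add_neg]
        · exact ht _
      set Z : Fin (n + 1) → K × L := fun l => if l ∈ T then
        (t m).1 * (D.ι (r l * (t l).2.1), E.ι (r l * (t l).2.1)) * (D.s (t m).2.2, E.s (t m).2.2)
        else 0
      have hZ : ∀ j, skelTerm D E (t' j) = 
          skelTerm D E (t (m.succAbove j)) - Z (m.succAbove j) := by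
        intro j
        dsimp only [t', Z]
        split_ifs with hjT
        · have hj : α (m.succAbove j) - α m + (t (m.succAbove j)).2.2 = (t m).2.2 := by
            rw [sub_add_eq_add_sub, (Finset.mem_filter.1 hjT).2]
            exact add_sub_cancel_left _ _
          simp only [skelTerm, sub_mul]
          congr 1
          ext
          · simp only [Prod.fst_mul]
            rw [← hj, D.s_add, map_mul]
            ring
          · simp only [Prod.snd_mul]
            rw [← hj, E.s_add, map_mul]
            ring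
        · rw [sub_zero]
      have hsum : ∑ l, Z l = 0 := by
        simp only [Z, ← Finset.sum_filter, Finset.filter_mem_eq_inter, Finset.univ_inter]
        rw [← Finset.sum_mul, ← Finset.mul_sum]
        have : ∑ l ∈ T, (D.ι (r l * (t l).2.1), E.ι (r l * (t l).2.1)) = (0 : K × L) := by
          ext
          · rw [Prod.fst_sum, ← map_sum, hc, map_zero]; rfl
          · rw [Prod.snd_sum, ← map_sum, hc, map_zero]; rfl
        rw [this, mul_zero, zero_mul]
      have hZm : skelTerm D E (t m) - Z m = 0 := by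
        simp only [Z, if_pos hmT, hrm, one_mul]
        exact sub_self _
      have : ∑ l, skelTerm D E (t l) = ∑ j, skelTerm D E (t' j) := by
        rw [Finset.sum_congr rfl fun j _ => hZ j, ← sub_zero (∑ l, skelTerm D E (t l)), ← hsum,
          ← Finset.sum_sub_distrib, Fin.sum_univ_succAbove _ m, hZm, zero_add]
      rw [this]
      exact ih t' ht'
    · -- no cancellation: the value is `e`
      have hzm := (hz m).1
      have key : ∀ {F : Type u} [Field F] (S : HenselData F k Γ) (π : K × L →+* F),
          (∀ l, S.v (π (t l).1) = α l) → (∀ c, π (D.ι c, E.ι c) = S.ι c) →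
          (∀ γ, π (D.s γ, E.s γ) = S.s γ) → (∀ l, 0 < S.v (π (q l) - S.ι (r l))) →
          S.v (π (∑ l, skelTerm D E (t l))) = e := by
        intro F _ S π hπα hπι hπs hπr
        have hT : S.v (π (∑ l ∈ T, skelTerm D E (t l))) = e := by
          rw [Finset.sum_congr rfl hdiv, ← Finset.sum_mul]
          simp only [mul_assoc, ← Finset.mul_sum]
          rw [map_mul π, map_mul π, S.v.map_mul, S.v.map_mul, hπα, hπs, S.v_s, map_sum]
          have hlt : (0 : WithTop Γ) < S.v (∑ l ∈ T,
              (π (q l * (D.ι (t l).2.1, E.ι (t l).2.1)) - S.ι (r l * (t l).2.1))) := by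
            refine S.v.map_lt_sum WithTop.zero_ne_top fun l _ => ?_
            rw [map_mul π (q l), hπι, map_mul S.ι, ← sub_mul, S.v.map_mul, S.v_ι _ (hz l).2,
              add_zero]
            exact hπr l
          have h0 : S.v (S.ι (∑ l ∈ T, r l * (t l).2.1)) = 0 := S.v_ι _ hc
          rw [Finset.sum_sub_distrib, ← map_sum S.ι, ← h0] at hlt
          rw [S.v.map_eq_of_lt_sub hlt, h0, zero_add, ← WithTop.coe_add]
        rw [← Finset.sum_add_sum_compl T, map_add, S.v.map_add_eq_of_lt_left, hT]
        rw [hT, map_sum]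
        refine S.v.map_lt_sum WithTop.coe_ne_top fun l hl => ?_
        rw [skelTerm, map_mul π, map_mul π, S.v.map_mul, S.v.map_mul, hπα, hπι, hπs, S.v_s,
          S.v_ι _ (hz l).2, add_zero, ← WithTop.coe_add, WithTop.coe_lt_coe]
        exact (hm l (Finset.mem_univ _)).lt_of_ne fun h => Finset.mem_compl.1 hl
          (Finset.mem_filter.2 ⟨Finset.mem_univ _, h.symm⟩)
      rw [show (∑ l, skelTerm D E (t l)).1 = RingHom.fst K L (∑ l, skelTerm D E (t l)) from rfl,
        show (∑ l, skelTerm D E (t l)).2 = RingHom.snd K L (∑ l, skelTerm D E (t l)) from rfl,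
        key D (RingHom.fst K L) hα (fun _ => rfl) (fun _ => rfl) hr,
        key E (RingHom.snd K L) (fun l => (hP _ (ht l)).symm.trans (hα l)) (fun _ => rfl)
          (fun _ => rfl) hr']

variable (D E) in
/-- The pairs of coefficients and sections. -/
def skelPairs : Set (K × L) :=
  Set.range (fun c => (D.ι c, E.ι c)) ∪ Set.range fun γ => (D.s γ, E.s γ)

/-- All residues and values can be adjoined. -/
theorem exists_adjoin_skel (hP : Compat D E P) (hI : InvClosed P) (hS : Skel D E P) :
    ∃ P' : Subring (K × L), Compat D E P' ∧ InvClosed P' ∧ P ≤ P' ∧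
      skelPairs D E ⊆ (P' : Set (K × L)) := by
  classical
  let S : Set (K × L) := {x | ∃ t : (K × L) × k × Γ, t.1 ∈ P ∧ x = skelTerm D E t}
  have hSmul : ∀ x ∈ S, ∀ y ∈ S, x * y ∈ S := by
    rintro _ ⟨⟨p, c, γ⟩, hp, rfl⟩ _ ⟨⟨q, d, δ⟩, hq, rfl⟩
    refine ⟨(p * q, c * d, γ + δ), mul_mem hp hq, ?_⟩
    ext <;> simp [skelTerm, D.s_add, E.s_add] <;> ring
  let Q : Subring (K × L) :=
    { carrier := {x | ∃ (n : ℕ) (t : Fin n → (K × L) × k × Γ), (∀ l, (t l).1 ∈ P) ∧
        x = ∑ l, skelTerm D E (t l)}
      one_mem' := ⟨1, fun _ => (1, 1, 0), fun _ => P.one_mem, by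
        simp [skelTerm, D.s_zero, E.s_zero, ← Prod.mk_one_one]⟩
      zero_mem' := ⟨0, Fin.elim0, fun l => l.elim0, by simp⟩
      add_mem' := by
        rintro _ _ ⟨n, t, ht, rfl⟩ ⟨n', t', ht', rfl⟩
        exact ⟨n + n', Fin.append t t', Fin.addCases (fun i => by simpa using ht i)
          fun i => by simpa using ht' i, by simp [Fin.sum_univ_add]⟩
      neg_mem' := by
        rintro _ ⟨n, t, ht, rfl⟩
        refine ⟨n, fun l => (-(t l).1, (t l).2), fun l => neg_mem (ht l), ?_⟩
        rw [← Finset.sum_neg_distrib]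
        simp [skelTerm]
      mul_mem' := by
        rintro _ _ ⟨n, t, ht, rfl⟩ ⟨n', t', ht', rfl⟩
        choose u hu hu' using fun ij : Fin n × Fin n' =>
          hSmul _ ⟨t ij.1, ht _, rfl⟩ _ ⟨t' ij.2, ht' _, rfl⟩
        refine ⟨n * n', fun l => u (finProdFinEquiv.symm l), fun l => hu _, ?_⟩
        rw [Finset.sum_mul_sum, ← finProdFinEquiv.sum_comp]
        simp only [Equiv.symm_apply_apply, ← hu']
        rw [Fintype.sum_prod_type] }
  have hQ : Compat D E Q := by
    rintro _ ⟨n, t, ht, rfl⟩
    exact compat_terms hP hI hS n t ht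
  have hmem : ∀ p ∈ P, ∀ c γ, skelTerm D E (p, c, γ) ∈ Q := fun p hp c γ =>
    ⟨1, fun _ => (p, c, γ), fun _ => hp, by simp⟩
  obtain ⟨h1, h2, h3⟩ := hQ.frac
  refine ⟨fracClosure Q hQ, h1, h2, fun p hp => h3 ?_, ?_⟩
  · convert hmem p hp 1 0 using 1
    simp [skelTerm, D.s_zero, E.s_zero, Prod.ext_iff]
  · rintro _ (⟨c, rfl⟩ | ⟨γ, rfl⟩)
    · convert h3 (hmem 1 P.one_mem c 0) using 1
      simp [skelTerm, D.s_zero, E.s_zero]
    · convert h3 (hmem 1 P.one_mem 1 γ) using 1
      simp [skelTerm]

end Fermat.Agent.AxKochen
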