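import Mathlib.RingTheory.Valuation.Basic
import Mathlib.Algebra.Polynomial.Taylor
import Mathlib.Tactic.LinearCombination
import Mathlib.Tactic.FieldSimp

/-!
# Henselian valued fields of residue characteristic zero

The data used by the theorem of Ax, Kochen and Ershov: a coefficient field, a cross-section and
Hensel's lemma.
-/

set_option autoImplicit false

noncomputable section

open Polynomial

namespace Fermat.Agent.AxKochen

variable {K k Γ : Type*} [Field K] [Field k] [AddCommGroup Γ] [LinearOrder Γ]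
  [IsOrderedAddMonoid Γ]

theorem exists_val (v : AddValuation K (WithTop Γ)) {x : K} (hx : x ≠ 0) :
    ∃ γ : Γ, v x = γ := by
  obtain ⟨γ, hγ⟩ := WithTop.ne_top_iff_exists.1 (v.ne_top_iff.2 hx)
  exact ⟨γ, hγ.symm⟩

theorem ne_zero_of_val (v : AddValuation K (WithTop Γ)) {x : K} {γ : Γ} (hx : v x = γ) :
    x ≠ 0 :=
  v.ne_top_iff.1 (hx ▸ WithTop.coe_ne_top)

theorem val_pow (v : AddValuation K (WithTop Γ)) {x : K} {γ : Γ} (hx : v x = γ) (n : ℕ) :
    v (x ^ n) = ((n • γ : Γ) : WithTop Γ) := by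
  rw [v.map_pow, hx, ← WithTop.coe_nsmul]

theorem val_inv (v : AddValuation K (WithTop Γ)) {x : K} {γ : Γ} (hx : v x = γ) :
    v x⁻¹ = ((-γ : Γ) : WithTop Γ) := by
  rw [v.map_inv, hx, WithTop.LinearOrderedAddCommGroup.coe_neg]

theorem val_div (v : AddValuation K (WithTop Γ)) {x y : K} {γ δ : Γ} (hx : v x = γ)
    (hy : v y = δ) : v (x / y) = ((γ - δ : Γ) : WithTop Γ) := by
  rw [div_eq_mul_inv, v.map_mul, hx, val_inv v hy, ← WithTop.coe_add, sub_eq_add_neg]

/-- A henselian valued field with coefficient field and cross-section. -/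
structure HenselData (K k Γ : Type*) [Field K] [Field k] [AddCommGroup Γ] [LinearOrder Γ]
    [IsOrderedAddMonoid Γ] where
  /-- The valuation. -/
  v : AddValuation K (WithTop Γ)
  /-- The coefficient field. -/
  ι : k →+* K
  v_ι : ∀ c : k, c ≠ 0 → v (ι c) = 0
  approx : ∀ x, v x = 0 → ∃ c, 0 < v (x - ι c)
  /-- The cross-section. -/
  s : Γ → K
  v_s : ∀ γ, v (s γ) = γ
  s_add : ∀ γ δ, s (γ + δ) = s γ * s δ
  hensel : ∀ (f : K[X]) (a : K), f.Monic → (∀ j, 0 ≤ v (f.coeff j)) → 0 ≤ v a →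
    0 < v (f.eval a) → v (f.derivative.eval a) = 0 → ∃ z, f.eval z = 0 ∧ 0 < v (z - a)

namespace HenselData

variable (D : HenselData K k Γ)

theorem s_ne_zero (γ : Γ) : D.s γ ≠ 0 :=
  ne_zero_of_val D.v (D.v_s γ)

theorem s_zero : D.s 0 = 1 := by
  have h := D.s_add 0 0
  rw [add_zero] at h
  exact mul_left_cancel₀ (D.s_ne_zero 0) (h.symm.trans (mul_one _).symm)

theorem v_natCast [CharZero k] {n : ℕ} (hn : n ≠ 0) : D.v (n : K) = 0 := by
  rw [← map_natCast D.ι]
  exact D.v_ι _ (Nat.cast_ne_zero.2 hn)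

theorem ι_unique {x : K} {c c' : k} (h : 0 < D.v (x - D.ι c)) (h' : 0 < D.v (x - D.ι c')) :
    c = c' := by
  by_contra hne
  have := D.v.map_lt_add h' (y := -(x - D.ι c)) (by rwa [D.v.map_neg])
  rw [show x - D.ι c' + -(x - D.ι c) = D.ι c - D.ι c' by ring, ← map_sub,
    D.v_ι _ (sub_ne_zero.2 hne)] at this
  exact lt_irrefl _ this

/-- Hensel's lemma for a polynomial with dominant linear part. -/
theorem hensel_linear {G : K[X]} (h0 : D.v (G.coeff 0) = 0) (h1 : D.v (G.coeff 1) = 0)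
    (h2 : ∀ j, 2 ≤ j → 0 < D.v (G.coeff j)) : ∃ z, G.eval z = 0 ∧ D.v z = 0 := by
  classical
  have hc0 : G.coeff 0 ≠ 0 := ne_zero_of_val D.v (γ := 0) (by simpa using h0)
  obtain ⟨m, hm⟩ : ∃ m, G.natDegree = m + 1 := Nat.exists_eq_succ_of_ne_zero fun h =>
    ne_zero_of_val D.v (γ := 0) (by simpa using h1)
      (coeff_eq_zero_of_natDegree_lt (h ▸ one_pos))
  set a := -(G.coeff 1 / G.coeff 0) with ha
  have hva : D.v a = 0 := by
    rw [ha, D.v.map_neg, val_div D.v (γ := 0) (δ := 0) (by simpa using h1) (by simpa using h0),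
      sub_zero, WithTop.coe_zero]
  have he : ∀ j, 2 ≤ j → 0 < D.v (G.coeff j / G.coeff 0) := fun j hj => by
    rw [div_eq_mul_inv, D.v.map_mul, D.v.map_inv, h0]
    simpa using h2 j hj
  set R : K[X] := ∑ j ∈ Finset.Icc 2 (m + 1), C (G.coeff j / G.coeff 0) * X ^ (m + 1 - j)
  have hR : ∀ i, 0 < D.v (R.coeff i) := fun i => by
    rw [finsetSum_coeff]
    refine D.v.map_lt_sum WithTop.zero_ne_top.symm.symm fun j hj => ?_
    rw [coeff_C_mul, coeff_X_pow]
    split_ifs
    · simpa using he j (Finset.mem_Icc.1 hj).1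
    · simp
  have hRdeg : R.degree < (m + 1 : ℕ) := by
    refine (degree_sum_le _ _).trans_lt
      ((Finset.sup_lt_iff (WithBot.bot_lt_coe _)).2 fun j hj => ?_)
    exact (degree_C_mul_X_pow_le _ _).trans_lt (Nat.cast_lt.2 (by
      have := (Finset.mem_Icc.1 hj).1; omega))
  set Q : K[X] := X ^ (m + 1) + (-C a * X ^ m + R) with hQdef
  have hQm : Q.Monic := monic_X_pow_add ((degree_add_le _ _).trans_lt (max_lt (by
    rw [← C_neg]
    exact (degree_C_mul_X_pow_le _ _).trans_lt (Nat.cast_lt.2 (Nat.lt_succ_self m))) hRdeg))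
  have hQc : ∀ i, 0 ≤ D.v (Q.coeff i) := fun i => by
    rw [hQdef, coeff_add, coeff_add, coeff_X_pow, ← C_neg, coeff_C_mul, coeff_X_pow]
    refine D.v.map_le_add ?_ (D.v.map_le_add ?_ (hR i).le)
    · split_ifs <;> simp
    · split_ifs
      · simp [hva]
      · simp
  have hev : ∀ P : K[X], (∀ i, 0 < D.v (P.coeff i)) → 0 < D.v (P.eval a) := fun P hP => by
    rw [eval_eq_sum_range]
    refine D.v.map_lt_sum WithTop.zero_ne_top fun i _ => ?_
    rw [D.v.map_mul, D.v.map_pow, hva, nsmul_zero, add_zero]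
    exact hP i
  have hQa : Q.eval a = R.eval a := by
    simp [hQdef, pow_succ]; ring
  have hQ'a : Q.derivative.eval a = a ^ m + R.derivative.eval a := by
    rcases m with _ | n
    · simp [hQdef]
    · simp [hQdef, derivative_X_pow, pow_succ]
      ring
  obtain ⟨w, hw, hwa⟩ := D.hensel Q a hQm hQc hva.ge (hQa ▸ hev R hR) (by
    rw [hQ'a, D.v.map_add_eq_of_lt_left]
    · rw [D.v.map_pow, hva, nsmul_zero]
    rw [D.v.map_pow, hva, nsmul_zero]
    refine hev _ fun i => ?_
    rw [coeff_derivative, D.v.map_mul]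
    refine (hR (i + 1)).trans_le (le_add_of_nonneg_right ?_)
    rw [← Nat.cast_add_one, ← map_natCast D.ι]
    by_cases h : ((i + 1 : ℕ) : k) = 0
    · simp [h]
    · rw [D.v_ι _ h])
  have hvw : D.v w = 0 := by rw [D.v.map_eq_of_lt_sub (by rwa [hva]), hva]
  have hw0 : w ≠ 0 := ne_zero_of_val D.v (γ := 0) (by simpa using hvw)
  refine ⟨w⁻¹, ?_, by rw [D.v.map_inv, hvw, neg_zero]⟩
  have key : G.coeff 0 * Q.eval w = w ^ (m + 1) * G.eval w⁻¹ := by
    rw [eval_eq_sum_range (p := G), hm, Finset.sum_range_succ', Finset.sum_range_succ']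
    simp only [hQdef, R, eval_add, eval_mul, eval_pow, eval_X, eval_neg, eval_C, eval_finsetSum,
      mul_add, Finset.mul_sum]
    rw [← Finset.Ico_succ_right_eq_Icc, Finset.sum_Ico_eq_sum_range]
    have hs : ∀ l ∈ Finset.range m, w ^ (m + 1) * (G.coeff (l + 1 + 1) * w⁻¹ ^ (l + 1 + 1)) =
        G.coeff 0 * (G.coeff (2 + l) / G.coeff 0 * w ^ (m + 1 - (2 + l))) := fun l hl => by
      rw [show l + 1 + 1 = 2 + l by omega, inv_pow]
      have := pow_sub₀ w hw0 (show 2 + l ≤ m + 1 by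
        have := Finset.mem_range.1 hl; omega)
      rw [this]
      field_simp
    rw [Finset.sum_congr rfl hs]
    simp only [Order.succ_eq_add_one, show m + 1 + 1 - 2 = m by omega]
    rw [ha]
    field_simp
    linear_combination (-(G.coeff 1 * w ^ m)) * mul_inv_cancel₀ hw0
  rw [hw, mul_zero, eq_comm, mul_eq_zero] at key
  exact key.resolve_left (pow_ne_zero _ hw0)

end HenselData

end Fermat.Agent.AxKochen
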