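import Fermat.Agent.AxKochen.Basic
import Mathlib.FieldTheory.Perfect
import Mathlib.FieldTheory.Minpoly.Field
import Mathlib.Algebra.Field.Subfield.Basic
import Mathlib.Order.Zorn

/-!
# Coefficient fields

A henselian valued field with residue field of characteristic zero contains a copy of it.
-/

set_option autoImplicit false

noncomputable section

open Polynomial

namespace Fermat.Agent.AxKochen

variable {K k Γ : Type*} [Field K] [Field k] [AddCommGroup Γ] [LinearOrder Γ]
  [IsOrderedAddMonoid Γ]

/-- The valuation ring. -/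
def integralRing (v : AddValuation K (WithTop Γ)) : Subring K where
  carrier := {x | 0 ≤ v x}
  one_mem' := by simp
  zero_mem' := by simp
  mul_mem' := fun {a b} ha hb => by
    show 0 ≤ v (a * b)
    rw [v.map_mul]
    exact add_nonneg ha hb
  add_mem' := fun ha hb => v.map_le_add ha hb
  neg_mem' := fun {a} ha => by
    show 0 ≤ v (-a)
    rwa [v.map_neg]

/-- **Existence of coefficient fields.** -/
theorem exists_coefficientField [CharZero k] (v : AddValuation K (WithTop Γ))
    (r : integralRing v →+* k) (hr : Function.Surjective r) (hker : ∀ x, r x = 0 ↔ 0 < v (x : K))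
    (hens : ∀ (f : K[X]) (a : K), f.Monic → (∀ j, 0 ≤ v (f.coeff j)) → 0 ≤ v a →
      0 < v (f.eval a) → v (f.derivative.eval a) = 0 → ∃ z, f.eval z = 0 ∧ 0 < v (z - a)) :
    ∃ ι : k →+* K, (∀ c, c ≠ 0 → v (ι c) = 0) ∧ ∀ x, v x = 0 → ∃ c, 0 < v (x - ι c) := by
  classical
  have hval : ∀ x : integralRing v, r x ≠ 0 → v (x : K) = 0 := fun x hx =>
    le_antisymm (not_lt.1 fun h => hx ((hker x).2 h)) x.2
  have : CharZero K := charZero_of_inj_zero fun n hn => by
    by_contra h0
    have h1 : r (n : integralRing v) = 0 := by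
      rw [hker]
      simp [hn]
    rw [map_natCast] at h1
    exact h0 (Nat.cast_eq_zero.1 h1)
  let s : Set (Subfield K) := {F | ∀ x ∈ F, x ≠ 0 → v x = 0}
  have hprime : (Rat.castHom K).fieldRange ∈ s := by
    have hn : ∀ n : ℕ, n ≠ 0 → v (n : K) = 0 := fun n hn => by
      have := hval (n : integralRing v) (by rw [map_natCast]; exact Nat.cast_ne_zero.2 hn)
      simpa using this
    rintro _ ⟨q, rfl⟩ hq
    have hq0 : q ≠ 0 := by rintro rfl; simp at hq
    have hnum : v (q.num : K) = 0 := by
      obtain ⟨n, hn' | hn'⟩ := q.num.eq_nat_or_neg <;>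
        (have h0 : n ≠ 0 := by rintro rfl; exact hq0 (Rat.num_eq_zero.1 (by simpa using hn'))) <;>
        rw [hn'] <;> simp [v.map_neg, hn n h0]
    rw [Rat.coe_castHom, Rat.cast_def, v.map_div, hnum, hn _ q.den_ne_zero]
    simp
  obtain ⟨F, -, hF⟩ := zorn_le_nonempty₀ s (fun c hc hch y hy => by
    have : Nonempty c := ⟨⟨y, hy⟩⟩
    refine ⟨⨆ F : c, (F : Subfield K), fun x hx hx0 => ?_, fun z hz =>
      le_iSup (fun F : c => (F : Subfield K)) ⟨z, hz⟩⟩
    obtain ⟨F, hF⟩ := (Subfield.mem_iSup_of_directed
      (directedOn_iff_directed.1 hch.directedOn)).1 hx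
    exact hc F.2 x hF hx0) _ hprime
  have hFO : ∀ x ∈ F, x ∈ integralRing v := fun x hx => by
    show 0 ≤ v x
    by_cases h : x = 0
    · simp [h]
    · exact (hF.prop x hx h).ge
  let i : F →+* integralRing v := F.subtype.codRestrict _ fun x => hFO x x.2
  let j : F →+* k := r.comp i
  have hsur : Function.Surjective j := fun c => by
    by_contra hc
    letI : Algebra F k := j.toAlgebra
    have hj : ∀ h : F[X], aeval c h = h.eval₂ j c := fun h => rfl
    obtain ⟨z, hzc, hz⟩ : ∃ z : integralRing v, r z = c ∧
        ∀ h : F[X], aeval c h = 0 → h.eval₂ i z = 0 := by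
      obtain ⟨a, ha⟩ := hr c
      by_cases hint : IsIntegral F c
      · set m := minpoly F c with hm
        have hmon := minpoly.monic hint
        have hsep : aeval c (derivative m) ≠ 0 :=
          (minpoly.irreducible hint).separable.aeval_derivative_ne_zero (minpoly.aeval F c)
        set f := m.map F.subtype
        have hev : ∀ h : F[X], (h.map F.subtype).eval (a : K) =
            ((h.eval₂ i a : integralRing v) : K) :=
          fun h => by
            rw [eval_map]
            exact (hom_eval₂ h i (integralRing v).subtype a).symm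
        have hred : ∀ h : F[X], r (h.eval₂ i a) = aeval c h := fun h => by
          rw [hj, hom_eval₂, ha]
        obtain ⟨z, hz, hza⟩ := hens f a (hmon.map _) (fun l => by
            rw [coeff_map]; exact hFO _ (m.coeff l).2) a.2
          (by rw [hev, ← hker, hred, minpoly.aeval])
          (by
            rw [derivative_map, hev]
            exact hval _ (by rwa [hred]))
        have hzO : z ∈ integralRing v := by
          show 0 ≤ v z
          rw [← sub_add_cancel z (a : K)]
          exact v.map_le_add hza.le a.2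
        refine ⟨⟨z, hzO⟩, ?_, fun h hh => ?_⟩
        · rw [← ha, ← sub_eq_zero, ← map_sub, hker]
          exact hza
        · obtain ⟨q, rfl⟩ := minpoly.dvd F c hh
          rw [eval₂_mul, mul_eq_zero_of_left]
          apply Subtype.coe_injective
          show (integralRing v).subtype (eval₂ i ⟨z, hzO⟩ (minpoly F c)) = 0
          rw [hom_eval₂]
          exact (eval_map _ _).symm.trans hz
      · refine ⟨a, ha, fun h hh => ?_⟩
        by_cases h0 : h = 0
        · simp [h0]
        · exact absurd (isAlgebraic_iff_isIntegral.1 ⟨h, h0, hh⟩) hint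
    let π : F[X] →+* K := eval₂RingHom F.subtype (z : K)
    have hπ : ∀ h, π h ≠ 0 → v (π h) = 0 := fun h hh => by
      have e : π h = ((h.eval₂ i z : integralRing v) : K) :=
        (hom_eval₂ h i (integralRing v).subtype z).symm
      rw [e] at hh ⊢
      refine hval _ ?_
      rw [hom_eval₂, hzc, ← hj]
      exact fun h' => hh (by rw [hz h h']; rfl)
    set G := Subfield.closure ((F : Set K) ∪ {(z : K)})
    have hG : G ∈ s := by
      intro x hx hx0
      obtain ⟨a, ha, b, hb, rfl⟩ := Subfield.mem_closure_iff.1 hx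
      have hle : Subring.closure ((F : Set K) ∪ {(z : K)}) ≤ π.range := Subring.closure_le.2 (by
        rintro x (hx | hx)
        · exact ⟨C ⟨x, hx⟩, by simp [π]⟩
        · exact ⟨Polynomial.X, by simp [π, Set.mem_singleton_iff.1 hx]⟩)
      obtain ⟨p, rfl⟩ := hle ha
      obtain ⟨q, rfl⟩ := hle hb
      rw [div_ne_zero_iff] at hx0
      rw [v.map_div, hπ p hx0.1, hπ q hx0.2]
      simp
    have hFG : F ≤ G := fun x hx => Subfield.subset_closure (Or.inl hx)
    have hzF : (z : K) ∈ F := hF.le_of_ge hG hFG (Subfield.subset_closure (Or.inr rfl))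
    exact hc ⟨⟨z, hzF⟩, by rw [← hzc]; rfl⟩
  let e : F ≃+* k := RingEquiv.ofBijective j ⟨j.injective, hsur⟩
  refine ⟨F.subtype.comp e.symm.toRingHom, fun c hc => hF.prop _ (e.symm c).2 ?_, fun x hx => ?_⟩
  · simpa using hc
  · refine ⟨r ⟨x, hx.ge⟩, (hker (⟨x, hx.ge⟩ - i (e.symm (r ⟨x, hx.ge⟩)))).1 ?_⟩
    rw [map_sub, sub_eq_zero]
    exact (e.apply_symm_apply _).symm

end Fermat.Agent.AxKochen
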