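import Fermat.Agent.AxKochen.Basic
import Mathlib.Order.Filter.Finite
import Mathlib.Algebra.Ring.GeomSum
import Mathlib.RingTheory.Polynomial.Basic
import Mathlib.Algebra.Polynomial.Roots

/-!
# Kaplansky's lemmas on pseudo-Cauchy sequences

`x` has no best approximation in the subfield `M`; we study polynomials over `M` at late
approximations, in residue characteristic zero.
-/

set_option autoImplicit false

noncomputable section

open Polynomial Filter

namespace Fermat.Agent.AxKochen

universe u w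

variable {M K : Type u} {Γ : Type w} [Field M] [Field K] [AddCommGroup Γ] [LinearOrder Γ]
  [IsOrderedAddMonoid Γ]

/-- The set-up: `x` is not in `M` and has no best approximation there. -/
structure Approx (M K : Type u) (Γ : Type w) [Field M] [Field K] [AddCommGroup Γ] [LinearOrder Γ]
    [IsOrderedAddMonoid Γ] where
  v : AddValuation K (WithTop Γ)
  f : M →+* K
  x : K
  no_max : ∀ a, ∃ a', v (x - f a) < v (x - f a')
  v_natCast : ∀ n : ℕ, n ≠ 0 → v (n : K) = 0

namespace Approx

variable (A : Approx M K Γ)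

/-- The quality of an approximation. -/
def dist (a : M) : Γ :=
  (A.v (A.x - A.f a)).untopD 0

theorem v_dist (a : M) : A.v (A.x - A.f a) = A.dist a := by
  obtain ⟨γ, hγ⟩ := WithTop.ne_top_iff_exists.1
    (ne_top_of_lt (A.no_max a).choose_spec : A.v (A.x - A.f a) ≠ ⊤)
  rw [dist, ← hγ]
  rfl

theorem x_ne (a : M) : A.x ≠ A.f a := fun h => by
  have := A.v_dist a
  simp [h] at this

theorem exists_dist_lt (a : M) : ∃ a', A.dist a < A.dist a' := by
  obtain ⟨a', h⟩ := A.no_max a
  rw [A.v_dist, A.v_dist, WithTop.coe_lt_coe] at h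
  exact ⟨a', h⟩

/-- The filter of late approximations. -/
def late : Filter M where
  sets := {s | ∃ a₀, ∀ a, A.dist a₀ ≤ A.dist a → a ∈ s}
  univ_sets := ⟨0, fun _ _ => trivial⟩
  sets_of_superset := fun ⟨a₀, h⟩ hst => ⟨a₀, fun a ha => hst (h a ha)⟩
  inter_sets := fun {s t} ⟨a, ha⟩ ⟨b, hb⟩ => by
    rcases le_total (A.dist a) (A.dist b) with h | h
    · exact ⟨b, fun c hc => ⟨ha c (h.trans hc), hb c hc⟩⟩
    · exact ⟨a, fun c hc => ⟨ha c hc, hb c (h.trans hc)⟩⟩

instance late_neBot : A.late.NeBot :=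
  forall_mem_nonempty_iff_neBot.1 fun _ ⟨a₀, h⟩ => ⟨a₀, h a₀ le_rfl⟩

theorem eventually_dist_lt (b : M) : ∀ᶠ a in A.late, A.dist b < A.dist a := by
  obtain ⟨b', hb'⟩ := A.exists_dist_lt b
  exact ⟨b', fun a ha => hb'.trans_le ha⟩

theorem val_sub_eq {a a' : M} (h : A.dist a < A.dist a') :
    A.v (A.f (a' - a)) = A.dist a := by
  rw [map_sub, show A.f a' - A.f a = (A.x - A.f a) - (A.x - A.f a') by ring,
    A.v.map_sub_eq_of_lt_left (by rw [A.v_dist, A.v_dist, WithTop.coe_lt_coe]; exact h), A.v_dist]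

/-- `h` has a constant value at late approximations. -/
def Const (h : M[X]) : Prop :=
  ∃ β : Γ, ∀ᶠ a in A.late, A.v (A.f (h.eval a)) = β

theorem const_C {c : M} (hc : c ≠ 0) : A.Const (C c) := by
  obtain ⟨β, hβ⟩ := exists_val A.v ((map_ne_zero A.f).2 hc)
  exact ⟨β, Eventually.of_forall fun a => by rw [eval_C, hβ]⟩

/-- At `a`, the linear term of `h` dominates the higher ones at scale `dist a`. -/
def Dominant (h : M[X]) (β : Γ) (a : M) : Prop :=
  A.v (A.f (h.derivative.eval a)) = β ∧ ∀ j, 2 ≤ j →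
    ((β + A.dist a : Γ) : WithTop Γ) <
      A.v (A.f ((taylor a h).coeff j)) + ((j • A.dist a : Γ) : WithTop Γ)

theorem exists_eventually_min {α : Type*} {l : Filter α} [l.NeBot] (T : Finset ℕ)
    (hT : T.Nonempty) (β : ℕ → Γ) (t : α → Γ) (ht : ∀ a, ∀ᶠ a' in l, t a < t a') :
    ∃ J ∈ T, ∀ᶠ a in l, ∀ j ∈ T, j ≠ J → β J + J • t a < β j + j • t a := by
  have hpair : ∀ i j : ℕ, i < j → (∀ᶠ a in l, β i + i • t a < β j + j • t a) ∨
      ∀ᶠ a in l, β j + j • t a < β i + i • t a := fun i j hij => by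
    by_cases h : ∀ a, β j + j • t a < β i + i • t a
    · exact .inr (Eventually.of_forall h)
    obtain ⟨a₀, ha₀⟩ := not_forall.1 h
    refine .inl ((ht a₀).mono fun a ha => ?_)
    obtain ⟨d, rfl⟩ := Nat.exists_eq_add_of_lt hij
    have := not_lt.1 ha₀
    rw [add_assoc, add_nsmul, add_comm (i • _), ← add_assoc] at this ⊢
    have h' : (d + 1) • t a₀ < (d + 1) • t a := nsmul_lt_nsmul_right (Nat.succ_ne_zero d) ha
    exact add_lt_add_left ((le_of_add_le_add_right this).trans_lt (add_lt_add_right h' _)) _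
  have hall : ∀ᶠ a in l, ∀ i ∈ T, ∀ j ∈ T, i ≠ j →
      β i + i • t a < β j + j • t a → ∀ᶠ a' in l, β i + i • t a' < β j + j • t a' := by
    refine (eventually_all_finset T).2 fun i _ => (eventually_all_finset T).2 fun j _ => ?_
    rcases lt_trichotomy i j with h | h | h
    · rcases hpair i j h with h' | h'
      · exact Eventually.of_forall fun _ _ _ => h'
      · exact h'.mono fun a ha _ hlt => absurd hlt ha.not_gt
    · exact Eventually.of_forall fun _ hne => absurd h hne
    · rcases hpair j i h with h' | h'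
      · exact h'.mono fun a ha _ hlt => absurd hlt ha.not_gt
      · exact Eventually.of_forall fun _ _ _ => h'
  have hne : ∀ᶠ a in l, ∀ i ∈ T, ∀ j ∈ T, i ≠ j → β i + i • t a ≠ β j + j • t a := by
    refine (eventually_all_finset T).2 fun i _ => (eventually_all_finset T).2 fun j _ => ?_
    rcases lt_trichotomy i j with h | h | h
    · rcases hpair i j h with h' | h'
      · exact h'.mono fun a ha _ => ha.ne
      · exact h'.mono fun a ha _ => ha.ne'
    · exact Eventually.of_forall fun _ hne => absurd h hne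
    · rcases hpair j i h with h' | h'
      · exact h'.mono fun a ha _ => ha.ne'
      · exact h'.mono fun a ha _ => ha.ne
  obtain ⟨a, ha, hane⟩ := (hall.and hne).exists
  obtain ⟨J, hJ, hmin⟩ := T.exists_min_image (fun j => β j + j • t a) hT
  refine ⟨J, hJ, (eventually_all_finset T).2 fun j hj => ?_⟩
  by_cases hjJ : j = J
  · exact Eventually.of_forall fun _ h => absurd hjJ h
  · exact (ha J hJ j hj (Ne.symm hjJ)
      ((hmin j hj).lt_of_ne (hane J hJ j hj (Ne.symm hjJ)))).mono fun _ h _ => h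

/-- **Kaplansky's lemma**: the linear term dominates, as the residue characteristic is zero. -/
theorem exists_dominant {h : M[X]} (hn : 1 ≤ h.natDegree)
    (hlow : ∀ p : M[X], p ≠ 0 → p.natDegree < h.natDegree → A.Const p) :
    ∃ β, ∀ᶠ a in A.late, A.Dominant h β a := by
  classical
  have : CharZero M := charZero_of_inj_zero fun n hn' => by
    by_contra h0
    have := A.v_natCast n h0
    rw [← map_natCast A.f, hn', map_zero, A.v.map_zero] at this
    exact WithTop.top_ne_zero this
  set T := (Finset.Icc 1 h.natDegree).filter fun j => hasseDeriv j h ≠ 0 with hT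
  have h1T : 1 ∈ T := Finset.mem_filter.2 ⟨Finset.mem_Icc.2 ⟨le_rfl, hn⟩, by
    rw [hasseDeriv_one']
    exact fun h0 => by have := natDegree_eq_zero_of_derivative_eq_zero h0; omega⟩
  have hC : ∀ j ∈ T, A.Const (hasseDeriv j h) := fun j hj =>
    hlow _ (Finset.mem_filter.1 hj).2 ((natDegree_hasseDeriv_le h j).trans_lt (by
      have := Finset.mem_Icc.1 (Finset.mem_filter.1 hj).1; omega))
  have hC' : ∀ j, ∃ β : Γ, j ∈ T → ∀ᶠ a in A.late,
      A.v (A.f ((hasseDeriv j h).eval a)) = β := fun j => by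
    by_cases hj : j ∈ T
    · obtain ⟨β, hβ⟩ := hC j hj
      exact ⟨β, fun _ => hβ⟩
    · exact ⟨0, fun h => absurd h hj⟩
  choose β hβ using hC'
  have hz : ∀ a j, 1 ≤ j → j ∉ T → (taylor a h).coeff j = 0 := fun a j hj hjT => by
    rw [taylor_coeff]
    by_cases hjn : j ≤ h.natDegree
    · rw [not_not.1 fun h0 => hjT (Finset.mem_filter.2 ⟨Finset.mem_Icc.2 ⟨hj, hjn⟩, h0⟩), eval_zero]
    · rw [hasseDeriv_eq_zero_of_lt_natDegree h j (not_le.1 hjn), eval_zero]
  have hev : ∀ᶠ a in A.late, ∀ j ∈ T, A.v (A.f ((taylor a h).coeff j)) = β j :=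
    (eventually_all_finset T).2 fun j hj => (hβ j hj).mono fun a ha => by rwa [taylor_coeff]
  obtain ⟨J, hJT, hJ⟩ := exists_eventually_min T ⟨1, h1T⟩ β A.dist A.eventually_dist_lt
  obtain rfl : J = 1 := by
    by_contra hJ1
    obtain ⟨a, hat, haJ⟩ := (hev.and hJ).exists
    obtain ⟨a', hlt, ha't⟩ := ((A.eventually_dist_lt a).and hev).exists
    have hJ2 : 2 ≤ J := by
      have := (Finset.mem_Icc.1 (Finset.mem_filter.1 hJT).1).1; omega
    set d := a' - a with hd
    have hvd : A.v (A.f d) = A.dist a := A.val_sub_eq hlt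
    have hvt : ∀ i : ℕ, A.v (A.f ((taylor a h.derivative).coeff i * d ^ i)) =
        A.v (A.f ((taylor a h).coeff (i + 1))) + ((i • A.dist a : Γ) : WithTop Γ) := fun i => by
      rw [show (taylor a h.derivative).coeff i = (taylor a h).coeff (i + 1) * (i + 1) by
        rw [← coeff_derivative, taylor_apply, taylor_apply, derivative_comp]; simp,
        map_mul A.f, map_mul A.f, A.v.map_mul, A.v.map_mul, map_pow, val_pow A.v hvd,
        ← Nat.cast_add_one,
        map_natCast, A.v_natCast _ i.succ_ne_zero, add_zero]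
    set N := h.natDegree + 1
    have hdiff : h.derivative.eval a' - h.derivative.eval a =
        ∑ i ∈ Finset.Ico 1 N, (taylor a h.derivative).coeff i * d ^ i := by
      have e : h.derivative.eval a' = (taylor a h.derivative).eval d := by
        rw [taylor_eval, hd, sub_add_cancel]
      rw [e, eval_eq_sum_range' (show (taylor a h.derivative).natDegree < N by
        rw [natDegree_taylor]; exact Nat.lt_succ_of_le
          ((natDegree_derivative_le h).trans (by omega))),
        ← taylor_coeff_zero a h.derivative, Finset.range_eq_Ico,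
        Finset.sum_eq_sum_Ico_succ_bot (show 0 < N by omega)]
      simp
    have hβJ : ((β J + (J - 1) • A.dist a : Γ) : WithTop Γ) < β 1 := by
      have := haJ 1 h1T (Ne.symm hJ1)
      rw [show J = J - 1 + 1 by omega, succ_nsmul, ← add_assoc, one_nsmul] at this
      rw [WithTop.coe_lt_coe]
      have h' := lt_of_add_lt_add_right this
      rwa [show J - 1 + 1 = J by omega] at h'
    have hterm : ∀ i ∈ Finset.Ico 1 N, i ≠ J - 1 →
        ((β J + (J - 1) • A.dist a : Γ) : WithTop Γ) <
          A.v (A.f ((taylor a h.derivative).coeff i * d ^ i)) := fun i hi hne => by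
      rw [hvt]
      by_cases hiT : i + 1 ∈ T
      · have := haJ (i + 1) hiT (by omega)
        rw [show J = J - 1 + 1 by omega, succ_nsmul, succ_nsmul, ← add_assoc, ← add_assoc] at this
        rw [hat _ hiT, ← WithTop.coe_add, WithTop.coe_lt_coe]
        have h' := lt_of_add_lt_add_right this
        rwa [show J - 1 + 1 = J by omega] at h'
      · rw [hz a _ (by omega) hiT, map_zero, A.v.map_zero, top_add]
        exact WithTop.coe_lt_top _
    have hmem : J - 1 ∈ Finset.Ico 1 N := by
      have := (Finset.mem_Icc.1 (Finset.mem_filter.1 hJT).1).2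
      exact Finset.mem_Ico.2 ⟨by omega, by omega⟩
    have hv : A.v (A.f (h.derivative.eval a' - h.derivative.eval a)) =
        ((β J + (J - 1) • A.dist a : Γ) : WithTop Γ) := by
      have e : A.v (A.f ((taylor a h.derivative).coeff (J - 1) * d ^ (J - 1))) =
          ((β J + (J - 1) • A.dist a : Γ) : WithTop Γ) := by
        rw [hvt, show J - 1 + 1 = J by omega, hat J hJT, WithTop.coe_add]
      rw [hdiff, ← Finset.add_sum_erase _ _ hmem, map_add, A.v.map_add_eq_of_lt_left, e]
      rw [e, map_sum]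
      exact A.v.map_lt_sum WithTop.coe_ne_top fun i hi =>
        hterm i (Finset.mem_erase.1 hi).2 (Finset.mem_erase.1 hi).1
    have h1 : ∀ b : M, (∀ j ∈ T, A.v (A.f ((taylor b h).coeff j)) = β j) →
        A.v (A.f (h.derivative.eval b)) = β 1 := fun b hb => by
      rw [← taylor_coeff_one]; exact hb 1 h1T
    have := A.v.map_sub (A.f (h.derivative.eval a')) (A.f (h.derivative.eval a))
    rw [h1 a' ha't, h1 a hat, min_self, ← map_sub, hv] at this
    exact this.not_gt hβJ
  refine ⟨β 1, (hev.and hJ).mono fun a ⟨hat, haJ⟩ => ⟨?_, fun j hj => ?_⟩⟩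
  · rw [← taylor_coeff_one]; exact hat 1 h1T
  by_cases hjT : j ∈ T
  · rw [hat j hjT, ← WithTop.coe_add, WithTop.coe_lt_coe]
    simpa using haJ j hjT (by omega)
  · rw [hz a j (by omega) hjT, map_zero, A.v.map_zero, top_add]
    exact WithTop.coe_lt_top _

section Target

variable {L : Type u} [Field L] (w : AddValuation L (WithTop Γ)) (g : M →+* L)

theorem taylor_map_coeff (hg : ∀ a, w (g a) = A.v (A.f a)) (h : M[X]) (a : M) (j : ℕ) :
    w ((taylor (g a) (h.map g)).coeff j) = A.v (A.f ((taylor a h).coeff j)) := by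
  rw [show taylor (g a) (h.map g) = (taylor a h).map g by
    rw [taylor_apply, taylor_apply, map_comp]; simp, coeff_map, hg]

/-- Expansion at a dominant approximation. -/
theorem val_eval_sub (hg : ∀ a, w (g a) = A.v (A.f a)) {h : M[X]} (hn : 1 ≤ h.natDegree) {β : Γ}
    {a : M} (hdom : A.Dominant h β a) {z : L} (hz : w (z - g a) = A.dist a) :
    w ((h.map g).eval z - g (h.eval a)) = ((β + A.dist a : Γ) : WithTop Γ) := by
  set P := taylor (g a) (h.map g)
  have hP : P.natDegree < h.natDegree + 1 := by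
    rw [natDegree_taylor, natDegree_map_eq_of_injective g.injective]; omega
  have e : (h.map g).eval z = P.eval (z - g a) := by rw [taylor_eval, sub_add_cancel]
  rw [e, eval_eq_sum_range' hP, Finset.range_eq_Ico, Finset.sum_eq_sum_Ico_succ_bot (by omega),
    Finset.sum_eq_sum_Ico_succ_bot (by omega), show P.coeff 0 = g (h.eval a) by
      rw [taylor_coeff_zero, eval_map, eval₂_at_apply]]
  simp only [pow_zero, mul_one, add_sub_cancel_left, zero_add, pow_one]
  have h1 : w (P.coeff 1 * (z - g a)) = ((β + A.dist a : Γ) : WithTop Γ) := by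
    rw [w.map_mul, A.taylor_map_coeff w g hg, hz, taylor_coeff_one, hdom.1, WithTop.coe_add]
  rw [w.map_add_eq_of_lt_left, h1]
  rw [h1]
  refine w.map_lt_sum WithTop.coe_ne_top fun j hj => ?_
  rw [w.map_mul, A.taylor_map_coeff w g hg, val_pow w hz]
  exact hdom.2 j (Finset.mem_Ico.1 hj).1

/-- A constant value is also the value at any pseudo-limit. -/
theorem const_at (hg : ∀ a, w (g a) = A.v (A.f a)) {z : L} (hz : ∀ a, w (z - g a) = A.dist a)
    {h : M[X]} (hlow : ∀ p : M[X], p ≠ 0 → p.natDegree < h.natDegree → A.Const p) {β : Γ}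
    (hβ : ∀ᶠ a in A.late, A.v (A.f (h.eval a)) = β) : w ((h.map g).eval z) = β := by
  by_cases hn : h.natDegree = 0
  · obtain ⟨a, ha⟩ := hβ.exists
    rw [eq_C_of_natDegree_eq_zero hn] at ha ⊢
    simpa [hg] using ha
  obtain ⟨β₁, h₁⟩ := A.exists_dominant (Nat.one_le_iff_ne_zero.2 hn) hlow
  obtain ⟨a, ha, had⟩ := (hβ.and h₁).exists
  obtain ⟨a', hlt, ha', ha'd⟩ := ((A.eventually_dist_lt a).and (hβ.and h₁)).exists
  have hn' := Nat.one_le_iff_ne_zero.2 hn
  have e := A.val_eval_sub A.v A.f (fun _ => rfl) hn' had (z := A.f a')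
    (by rw [← map_sub, A.val_sub_eq hlt])
  have le : (β : WithTop Γ) ≤ ((β₁ + A.dist a : Γ) : WithTop Γ) := by
    rw [← e, eval_map, eval₂_at_apply]
    exact A.v.map_le_sub ha'.ge ha.ge
  have hlt' : w (g (h.eval a')) < w ((h.map g).eval z - g (h.eval a')) := by
    rw [hg, ha', A.val_eval_sub w g hg hn' ha'd (hz a')]
    exact le.trans_lt (WithTop.coe_lt_coe.2 (add_lt_add_right hlt _))
  rw [w.map_eq_of_lt_sub hlt', hg, ha']

theorem map_eval_eq_zero_iff {h : M[X]} (hn : h.natDegree = 0) {z : L}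
    (hz : (h.map g).eval z = 0) : h = 0 := by
  rw [eq_C_of_natDegree_eq_zero hn, Polynomial.map_C, eval_C, map_eq_zero] at hz
  rw [eq_C_of_natDegree_eq_zero hn, hz, C_0]

/-- A polynomial of minimal degree without constant value has a root among the pseudo-limits. -/
theorem exists_root (hg : ∀ a, w (g a) = A.v (A.f a))
    (hens : ∀ G : L[X], w (G.coeff 0) = 0 → w (G.coeff 1) = 0 →
      (∀ j, 2 ≤ j → 0 < w (G.coeff j)) → ∃ z, G.eval z = 0 ∧ w z = 0)
    {h : M[X]} (hh : h ≠ 0) (hnc : ¬ A.Const h)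
    (hlow : ∀ p : M[X], p ≠ 0 → p.natDegree < h.natDegree → A.Const p) :
    ∃ z, (h.map g).eval z = 0 ∧ ∀ a, w (z - g a) = A.dist a := by
  classical
  have hn : 1 ≤ h.natDegree := Nat.one_le_iff_ne_zero.2 fun h0 => hnc (by
    rw [eq_C_of_natDegree_eq_zero h0] at hh ⊢
    exact A.const_C fun hc => hh (by rw [hc, C_0]))
  obtain ⟨β, hβ⟩ := A.exists_dominant hn hlow
  have estep : ∀ {a a' : M}, A.dist a < A.dist a' → A.Dominant h β a →
      A.v (A.f (h.eval a') - A.f (h.eval a)) = ((β + A.dist a : Γ) : WithTop Γ) := by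
    intro a a' hlt hd
    have := A.val_eval_sub A.v A.f (fun _ => rfl) hn hd (z := A.f a')
      (by rw [← map_sub, A.val_sub_eq hlt])
    rwa [eval_map, eval₂_at_apply] at this
  have hinc : ∀ᶠ a in A.late, A.v (A.f (h.eval a)) = ((β + A.dist a : Γ) : WithTop Γ) := by
    refine hβ.mono fun a ha => ?_
    rcases lt_trichotomy (A.v (A.f (h.eval a))) ((β + A.dist a : Γ) : WithTop Γ) with hc | hc | hc
    · exfalso
      obtain ⟨δ, hδ⟩ := exists_val A.v
        (A.v.ne_top_iff.1 (ne_top_of_lt hc) : A.f (h.eval a) ≠ 0)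
      refine hnc ⟨δ, (A.eventually_dist_lt a).mono fun a' hlt => ?_⟩
      rw [A.v.map_eq_of_lt_sub (x := A.f (h.eval a)) (by rwa [estep hlt ha]), hδ]
    · exact hc
    · exfalso
      obtain ⟨a', hlt, hd'⟩ := ((A.eventually_dist_lt a).and hβ).exists
      obtain ⟨a'', hlt', hd''⟩ := ((A.eventually_dist_lt a').and hβ).exists
      have ea' : A.v (A.f (h.eval a')) = ((β + A.dist a : Γ) : WithTop Γ) := by
        rw [← sub_add_cancel (A.f (h.eval a')) (A.f (h.eval a)),
          A.v.map_add_eq_of_lt_left (by rwa [estep hlt ha]), estep hlt ha]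
      refine hnc ⟨β + A.dist a, (A.eventually_dist_lt a').mono fun c hc' => ?_⟩
      rw [A.v.map_eq_of_lt_sub, ea']
      rw [estep hc' hd', ea', WithTop.coe_lt_coe]
      exact add_lt_add_right hlt _
  have hroot : ∀ᶠ a in A.late,
      ∃ z, (h.map g).eval z = 0 ∧ w (z - g a) = A.dist a := by
    refine (hβ.and hinc).mono fun a ⟨hd, hi⟩ => ?_
    obtain ⟨a', hlt⟩ := A.exists_dist_lt a
    set d := g (a' - a) with hddef
    have hd' : w d = A.dist a := by rw [hddef, hg, A.val_sub_eq hlt]
    set P := taylor (g a) (h.map g)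
    set c := P.coeff 1 * d
    have hc : w c = ((β + A.dist a : Γ) : WithTop Γ) := by
      rw [w.map_mul, A.taylor_map_coeff w g hg, hd', taylor_coeff_one, hd.1, WithTop.coe_add]
    set G : L[X] := C c⁻¹ * P.comp (C d * X)
    have hG : ∀ j, w (G.coeff j) = A.v (A.f ((taylor a h).coeff j)) +
        ((j • A.dist a : Γ) : WithTop Γ) + ((-(β + A.dist a) : Γ) : WithTop Γ) := fun j => by
      rw [coeff_C_mul, comp_C_mul_X_coeff, w.map_mul, w.map_mul, A.taylor_map_coeff w g hg,
        val_pow w hd', val_inv w hc, add_comm]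
    obtain ⟨u, hu, hu0⟩ := hens G
      (by rw [hG, taylor_coeff_zero, hi, ← WithTop.coe_add, ← WithTop.coe_add]; simp)
      (by rw [hG, taylor_coeff_one, hd.1, ← WithTop.coe_add, ← WithTop.coe_add]; simp)
      fun j hj => by
        rw [hG]
        have := hd.2 j hj
        rcases eq_or_ne (A.v (A.f ((taylor a h).coeff j))) ⊤ with ht | ht
        · simp [ht]
        · obtain ⟨δ, hδ⟩ := WithTop.ne_top_iff_exists.1 ht
          rw [← hδ, ← WithTop.coe_add, WithTop.coe_lt_coe] at this
          rw [← hδ, ← WithTop.coe_add, ← WithTop.coe_add, WithTop.coe_pos]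
          exact lt_add_neg_iff_lt.2 this
    refine ⟨g a + d * u, ?_, by rw [add_sub_cancel_left, w.map_mul, hd', hu0, add_zero]⟩
    rw [eval_mul, eval_C, eval_comp, eval_mul, eval_C, eval_X, taylor_eval, mul_eq_zero] at hu
    rw [add_comm]
    exact hu.resolve_left (inv_ne_zero (ne_zero_of_val w hc))
  have hfin : Set.Finite {z | (h.map g).eval z = 0} :=
    finite_setOfPred_isRoot ((Polynomial.map_ne_zero_iff g.injective).2 hh)
  obtain ⟨z, hz, hzf⟩ : ∃ z, (h.map g).eval z = 0 ∧
      ∃ᶠ a in A.late, w (z - g a) = A.dist a := by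
    by_contra hcon
    push Not at hcon
    have := (hfin.eventually_all (l := A.late)).2 fun z hz => hcon z hz
    obtain ⟨a, ⟨z, hz, hza⟩, ha⟩ := (hroot.and this).exists
    exact ha z hz hza
  refine ⟨z, hz, fun b => ?_⟩
  obtain ⟨a, hza, hlt⟩ := (hzf.and_eventually (A.eventually_dist_lt b)).exists
  rw [← sub_add_sub_cancel z (g a) (g b), ← map_sub, add_comm, w.map_add_eq_of_lt_left, hg,
    A.val_sub_eq hlt]
  rw [hg, A.val_sub_eq hlt, hza]
  exact WithTop.coe_lt_coe.2 hlt

end Target

end Approx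

end Fermat.Agent.AxKochen
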