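import Fermat.Agent.AxKochen.Adjoin
import Fermat.Agent.AxKochen.Kaplansky
import Mathlib.SetTheory.Cardinal.Subfield
import Mathlib.Data.Countable.Basic
import Mathlib.Algebra.Polynomial.Cardinal
import Mathlib.Order.Zorn
import Mathlib.Algebra.Polynomial.Lifts
import Mathlib.Algebra.Polynomial.FieldDivision

/-!
# The embedding lemma of Ax, Kochen and Ershov
-/

set_option autoImplicit false

noncomputable section

open Polynomial

namespace Fermat.Agent.AxKochen

universe u v w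

variable {K L : Type u} {k : Type v} {Γ : Type w} [Field K] [Field L] [Field k] [AddCommGroup Γ]
  [LinearOrder Γ] [IsOrderedAddMonoid Γ]

/-- Countable, and closed under residues, sections and roots. -/
structure IsClosedSub (D : HenselData K k Γ) (F : Subfield K) : Prop where
  countable : (F : Set K).Countable
  s_mem : ∀ x ∈ F, ∀ γ : Γ, D.v x = γ → D.s γ ∈ F
  res_mem : ∀ x ∈ F, D.v x = 0 → ∃ c, 0 < D.v (x - D.ι c) ∧ D.ι c ∈ F
  root_mem : ∀ h : F[X], h ≠ 0 → ∀ z, (h.map F.subtype).eval z = 0 → z ∈ F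

/-- Every countable set lies in a closed subfield. -/
theorem exists_closedSub (D : HenselData K k Γ) {S : Set K} (hS : S.Countable) :
    ∃ F, IsClosedSub D F ∧ S ⊆ F := by
  classical
  choose res hres using D.approx
  let img : Subfield K → Set K := fun F => (F : Set K) ∪
    (fun x => D.s ((D.v x).untopD 0)) '' F ∪
    (fun x => if h : D.v x = 0 then D.ι (res x h) else 0) '' F ∪
    ⋃ h : F[X], {z | h ≠ 0 ∧ (h.map F.subtype).eval z = 0}
  obtain ⟨tower, ht0, hts⟩ : ∃ t : ℕ → Subfield K,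
      t 0 = Subfield.closure S ∧ ∀ n, t (n + 1) = Subfield.closure (img (t n)) :=
    ⟨fun n => (fun F => Subfield.closure (img F))^[n] (Subfield.closure S), rfl,
      fun n => Function.iterate_succ_apply' (fun F => Subfield.closure (img F)) n
        (Subfield.closure S)⟩
  have hcl : ∀ T : Set K, T.Countable → (Subfield.closure T : Set K).Countable := fun T hT => by
    rw [← Cardinal.le_aleph0_iff_set_countable] at hT ⊢
    exact (Subfield.cardinalMk_closure_le_max T).trans (max_le hT le_rfl)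
  have himg : ∀ F : Subfield K, (F : Set K).Countable → (img F).Countable := fun F hF => by
    have : Countable F := hF.to_subtype
    have : Countable F[X] := Cardinal.mk_le_aleph0_iff.1
      (cardinalMk_le_max.trans (max_le (Cardinal.mk_le_aleph0_iff.2 inferInstance) le_rfl))
    refine ((hF.union (hF.image _)).union (hF.image _)).union
      (Set.countable_iUnion fun h => Set.Finite.countable ?_)
    by_cases h0 : h = 0
    · simp [h0]
    · exact (finite_setOfPred_isRoot ((Polynomial.map_ne_zero_iff F.subtype.injective).2 h0)).subset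
        fun z hz => hz.2
  have hseq : ∀ n : ℕ, (tower n : Set K).Countable := fun n => by
    induction n with
    | zero => rw [ht0]; exact hcl _ hS
    | succ n ih => rw [hts]; exact hcl _ (himg _ ih)
  have hsub : ∀ n, img (tower n) ⊆ tower (n + 1) := fun n => by
    rw [hts]
    exact Subfield.subset_closure
  have hmono : Monotone tower := monotone_nat_of_le_succ fun n x hx =>
    hsub n (Or.inl (Or.inl (Or.inl hx)))
  have hmem : ∀ {x}, x ∈ ⨆ n, tower n ↔ ∃ n, x ∈ tower n := fun {x} =>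
    Subfield.mem_iSup_of_directed hmono.directed_le
  refine ⟨⨆ n, tower n, ⟨?_, fun x hx γ hγ => ?_, fun x hx h0 => ?_, fun h hh z hz => ?_⟩,
    fun x hx =>
    hmem.2 ⟨0, ht0 ▸ Subfield.subset_closure hx⟩⟩
  · rw [Subfield.coe_iSup_of_directed hmono.directed_le]
    exact Set.countable_iUnion hseq
  · obtain ⟨n, hn⟩ := hmem.1 hx
    refine hmem.2 ⟨n + 1, hsub n (Or.inl (Or.inl (Or.inr ⟨x, hn, ?_⟩)))⟩
    simp [hγ]
  · obtain ⟨n, hn⟩ := hmem.1 hx
    exact ⟨res x h0, hres x h0, hmem.2 ⟨n + 1, hsub n (Or.inl (Or.inr ⟨x, hn, by simp [h0]⟩))⟩⟩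
  · choose N hN using fun j => hmem.1 (h.coeff j).2
    set M := (Finset.range (h.natDegree + 1)).sup N
    have hMm : ∀ j, (h.coeff j : K) ∈ tower M := fun j => by
      by_cases hj : j ≤ h.natDegree
      · exact hmono (Finset.le_sup (Finset.mem_range.2 (Nat.lt_succ_of_le hj))) (hN j)
      · simp [coeff_eq_zero_of_natDegree_lt (not_le.1 hj), zero_mem]
    obtain ⟨h', hh'⟩ : ∃ h' : Polynomial ↥(tower M),
        Polynomial.map (Subfield.subtype (tower M)) h' = h.map (⨆ n, tower n).subtype :=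
      (mem_lifts (f := Subfield.subtype (tower M)) _).1 ((lifts_iff_coeff_lifts _).2 fun j =>
        ⟨⟨(h.coeff j : K), hMm j⟩, by simp [coeff_map]⟩)
    refine hmem.2 ⟨M + 1, hsub M (Or.inr (Set.mem_iUnion.2 ⟨h', ?_, by rw [hh']; exact hz⟩))⟩
    rintro rfl
    rw [Polynomial.map_zero, eq_comm, Polynomial.map_eq_zero] at hh'
    exact hh hh'

/-- Pseudo-Cauchy sequences of length `ω` have pseudo-limits. -/
def HasPseudoLimits (v : AddValuation L (WithTop Γ)) : Prop :=
  ∀ (a : ℕ → L) (γ : ℕ → Γ), (∀ n m, n ≤ m → (γ n : WithTop Γ) ≤ v (a m - a n)) →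
    ∃ y, ∀ n, (γ n : WithTop Γ) ≤ v (y - a n)

theorem exists_pseudoLimit {M : Type u} [Field M] [Countable M] (A : Approx M K Γ)
    (w : AddValuation L (WithTop Γ)) (hw : HasPseudoLimits w) (g : M →+* L)
    (hg : ∀ a, w (g a) = A.v (A.f a)) : ∃ y, ∀ a, w (y - g a) = A.dist a := by
  obtain ⟨e, he⟩ := exists_surjective_nat M
  let b : ℕ → M := Nat.rec (e 0) fun n a => if A.dist a ≤ A.dist (e (n + 1)) then e (n + 1) else a
  have hb : ∀ n, A.dist (e n) ≤ A.dist (b n) ∧ A.dist (b n) ≤ A.dist (b (n + 1)) := fun n => by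
    have step : ∀ n, A.dist (b n) ≤ A.dist (b (n + 1)) ∧ A.dist (e (n + 1)) ≤ A.dist (b (n + 1)) :=
      fun n => by
      simp only [b]
      split_ifs with h
      · exact ⟨h, le_rfl⟩
      · exact ⟨le_rfl, (not_le.1 h).le⟩
    rcases n with _ | n
    · exact ⟨le_rfl, (step 0).1⟩
    · exact ⟨(step n).2, (step (n + 1)).1⟩
  obtain ⟨y, hy⟩ := hw (fun n => g (b n)) (fun n => A.dist (b n)) fun n m hnm => by
    rw [← map_sub, hg, map_sub, show A.f (b m) - A.f (b n) =
      (A.x - A.f (b n)) - (A.x - A.f (b m)) by ring]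
    refine A.v.map_le_sub (A.v_dist _).ge ?_
    rw [A.v_dist, WithTop.coe_le_coe]
    exact monotone_nat_of_le_succ (fun l => (hb l).2) hnm
  refine ⟨y, fun a => ?_⟩
  obtain ⟨a', ha'⟩ := A.exists_dist_lt a
  obtain ⟨n, rfl⟩ := he a'
  have hlt : A.dist a < A.dist (b n) := ha'.trans_le (hb n).1
  have hv : w (g (b n) - g a) = A.dist a := by rw [← map_sub, hg, A.val_sub_eq hlt]
  rw [← sub_add_sub_cancel y (g (b n)) (g a), add_comm, w.map_add_eq_of_lt_left, hv]
  rw [hv]
  exact (WithTop.coe_lt_coe.2 hlt).trans_le (hy n)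

variable [CharZero k] {D : HenselData K k Γ} {E : HenselData L k Γ}

/-- One immediate step. -/
theorem exists_immediate_step (hw : HasPseudoLimits E.v) {F : Subfield K} (hF : IsClosedSub D F)
    {P : Subring (K × L)} (hP : Compat D E P) (hI : InvClosed P) (hPF : ∀ p ∈ P, p.1 ∈ F)
    (hskel : ∀ p ∈ skelPairs D E, p.1 ∈ F → p ∈ P) {x : K} (hxF : x ∈ F)
    (hx : ∀ y, (x, y) ∉ P) :
    ∃ P', Compat D E P' ∧ InvClosed P' ∧ (∀ p ∈ P', p.1 ∈ F) ∧ P ≤ P' ∧ P' ≠ P := by
  classical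
  set M := domField P hI
  have hMF : ∀ {a : K}, a ∈ M → a ∈ F := fun {a} ha => by
    obtain ⟨b, hb⟩ := mem_domField.1 ha
    exact hPF _ hb
  have : Countable M := (hF.countable.mono fun a ha => hMF ha).to_subtype
  set g := hP.toHom hI
  have hgv : ∀ a : M, E.v (g a) = D.v (M.subtype a) := fun a => (hP _ (hP.toHom_spec a)).symm
  let A : Approx M K Γ :=
    { v := D.v
      f := M.subtype
      x := x
      no_max := fun a => by
        have hxa : x - M.subtype a ≠ 0 := sub_ne_zero.2 fun h => hx (g a) (h ▸ hP.toHom_spec a)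
        obtain ⟨δ, hδ⟩ := exists_val D.v hxa
        have hF1 : x - M.subtype a ∈ F := sub_mem hxF (hMF a.2)
        have hs := hF.s_mem _ hF1 δ hδ
        have hsM : D.s δ ∈ M := mem_domField.2 ⟨_, hskel _ (Or.inr ⟨δ, rfl⟩) hs⟩
        obtain ⟨c, hc, hcF⟩ := hF.res_mem _ (div_mem hF1 hs) (by
          rw [val_div D.v hδ (D.v_s δ), sub_self, WithTop.coe_zero])
        have hcM : D.ι c ∈ M := mem_domField.2 ⟨_, hskel _ (Or.inl ⟨c, rfl⟩) hcF⟩
        refine ⟨a + ⟨_, hcM⟩ * ⟨_, hsM⟩, ?_⟩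
        have e : x - M.subtype (a + ⟨_, hcM⟩ * ⟨_, hsM⟩) =
            ((x - M.subtype a) / D.s δ - D.ι c) * D.s δ := by
          rw [map_add, map_mul, sub_mul, div_mul_cancel₀ _ (D.s_ne_zero δ)]
          simp only [Subfield.subtype_apply]
          ring
        rw [e, hδ, D.v.map_mul, D.v_s]
        simpa using WithTop.add_lt_add_right (z := (δ : WithTop Γ)) WithTop.coe_ne_top hc
      v_natCast := fun n hn => D.v_natCast hn }
  have hgA : ∀ a, E.v (g a) = A.v (A.f a) := hgv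
  have key : ∀ z y, z ∈ F → (∀ b, (z, b) ∉ P) →
      (∀ h : M[X], D.v ((h.map M.subtype).eval z) = E.v ((h.map g).eval y)) →
      ∃ P', Compat D E P' ∧ InvClosed P' ∧ (∀ p ∈ P', p.1 ∈ F) ∧ P ≤ P' ∧ P' ≠ P := by
    intro z y hz hzP hv
    let π : M[X] →+* K × L := (eval₂RingHom M.subtype z).prod (eval₂RingHom g y)
    have hπ : Compat D E π.range := by
      rintro _ ⟨h, rfl⟩
      simpa [π, eval_map] using hv h
    obtain ⟨h1, h2, h3⟩ := hπ.frac
    have hPπ : P ≤ π.range := fun p hp => by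
      refine ⟨C ⟨p.1, mem_domField.2 ⟨p.2, hp⟩⟩, Prod.ext (by simp [π]) ?_⟩
      simpa [π, g] using hP.snd_eq (hP.toHom_spec _) hp rfl
    refine ⟨fracClosure π.range hπ, h1, h2, ?_, hPπ.trans h3, fun e => ?_⟩
    · have hπF : ∀ p ∈ π.range, p.1 ∈ F := by
        rintro _ ⟨h, rfl⟩
        simp only [π, RingHom.prod_apply, coe_eval₂RingHom]
        rw [eval₂_eq_sum_range]
        exact sum_mem fun j _ => mul_mem (hMF (h.coeff j).2) (pow_mem hz j)
      rintro _ ⟨a, ha, b, hb, -, rfl⟩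
      rw [Prod.fst_div]
      exact div_mem (hπF a ha) (hπF b hb)
    · have hzy : (z, y) ∈ π.range := ⟨X, by simp [π]⟩
      exact hzP y (e ▸ h3 hzy)
  by_cases hall : ∀ h : M[X], h ≠ 0 → A.Const h
  · obtain ⟨y, hy⟩ := exists_pseudoLimit A E.v hw g hgA
    refine key x y hxF hx fun h => ?_
    by_cases h0 : h = 0
    · simp [h0]
    obtain ⟨β, hβ⟩ := hall h h0
    exact (A.const_at D.v M.subtype (fun _ => rfl) A.v_dist (fun p hp _ => hall p hp) hβ).trans
      (A.const_at E.v g hgA hy (fun p hp _ => hall p hp) hβ).symm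
  · have hex : ∃ n, ∃ h : M[X], h ≠ 0 ∧ ¬ A.Const h ∧ h.natDegree = n := by
      push Not at hall
      obtain ⟨h, h0, hc⟩ := hall
      exact ⟨_, h, h0, hc, rfl⟩
    obtain ⟨q, hq0, hqc, hqn⟩ := Nat.find_spec hex
    have hlow : ∀ p : M[X], p ≠ 0 → p.natDegree < q.natDegree → A.Const p := fun p hp hlt =>
      not_not.1 fun hc => Nat.find_min hex (hqn ▸ hlt) ⟨p, hp, hc, rfl⟩
    obtain ⟨z, hz, hzd⟩ :=
      A.exists_root D.v M.subtype (fun _ => rfl) (fun _ => D.hensel_linear) hq0 hqc hlow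
    obtain ⟨y, hy, hyd⟩ := A.exists_root E.v g hgA (fun _ => E.hensel_linear) hq0 hqc hlow
    have hzF : z ∈ F := by
      refine hF.root_mem (q.map (Subfield.inclusion fun a ha => hMF ha)) ?_ z ?_
      · exact (Polynomial.map_ne_zero_iff (RingHom.injective _)).2 hq0
      · rw [Polynomial.map_map]
        exact hz
    refine key z y hzF (fun b hb => ?_) fun h => ?_
    · have := hzd ⟨z, mem_domField.2 ⟨b, hb⟩⟩
      simp at this
    rw [← EuclideanDomain.div_add_mod h q]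
    simp only [Polynomial.map_add, Polynomial.map_mul, eval_add, eval_mul, hz, hy, zero_mul,
      zero_add]
    by_cases h0 : h % q = 0
    · simp [h0]
    have hdeg : (h % q).natDegree < q.natDegree := by
      refine natDegree_lt_natDegree h0 ?_
      exact EuclideanDomain.remainder_lt h hq0
    obtain ⟨β, hβ⟩ := hlow _ h0 hdeg
    exact (A.const_at D.v M.subtype (fun _ => rfl) hzd
      (fun p hp h' => hlow p hp (h'.trans hdeg)) hβ).trans
      (A.const_at E.v g hgA hyd (fun p hp h' => hlow p hp (h'.trans hdeg)) hβ).symm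

/-- **The embedding lemma**: a partial isomorphism extends to any closed subfield. -/
theorem exists_extension (hw : HasPseudoLimits E.v) {F : Subfield K} (hF : IsClosedSub D F)
    {P : Subring (K × L)} (hP : Compat D E P) (hI : InvClosed P) (hS : Skel D E P)
    (hPF : ∀ p ∈ P, p.1 ∈ F) :
    ∃ P', Compat D E P' ∧ InvClosed P' ∧ Skel D E P' ∧ (∀ p ∈ P', p.1 ∈ F) ∧ P ≤ P' ∧
      ∀ x ∈ F, ∃ y, (x, y) ∈ P' := by
  obtain ⟨P₁, hP₁, hI₁, hle, hsk⟩ := exists_adjoin_skel hP hI hS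
  let P₂ : Subring (K × L) := P₁ ⊓ F.toSubring.comap (RingHom.fst K L)
  let s : Set (Subring (K × L)) := {Q | Compat D E Q ∧ InvClosed Q ∧ ∀ p ∈ Q, p.1 ∈ F}
  have hP₂ : P₂ ∈ s := ⟨fun p hp => hP₁ p hp.1, fun p hp => ⟨hI₁ p hp.1, by
    show (p⁻¹).1 ∈ F
    rw [Prod.fst_inv]
    exact inv_mem hp.2⟩, fun p hp => hp.2⟩
  obtain ⟨Q, hle₂, hQ⟩ := zorn_le_nonempty₀ s (fun c hc hch y hy => by
    have : Nonempty c := ⟨⟨y, hy⟩⟩
    have hd : Directed (· ≤ ·) fun Q : c => (Q : Subring (K × L)) :=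
      directedOn_iff_directed.1 hch.directedOn
    have hmem : ∀ {p}, p ∈ ⨆ Q : c, (Q : Subring (K × L)) ↔
        ∃ Q : c, p ∈ (Q : Subring (K × L)) :=
      fun {p} => Subring.mem_iSup_of_directed hd
    refine ⟨⨆ Q : c, (Q : Subring (K × L)), ⟨fun p hp => ?_, fun p hp => ?_, fun p hp => ?_⟩,
      fun z hz => le_iSup (fun Q : c => (Q : Subring (K × L))) ⟨z, hz⟩⟩
    · obtain ⟨Q, hQ⟩ := hmem.1 hp
      exact (hc Q.2).1 p hQ
    · obtain ⟨Q, hQ⟩ := hmem.1 hp
      exact hmem.2 ⟨Q, (hc Q.2).2.1 p hQ⟩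
    · obtain ⟨Q, hQ⟩ := hmem.1 hp
      exact (hc Q.2).2.2 p hQ) P₂ hP₂
  obtain ⟨hQc, hQi, hQF⟩ := hQ.prop
  have hskel : ∀ p ∈ skelPairs D E, p.1 ∈ F → p ∈ Q := fun p hp hpF => hle₂ ⟨hsk hp, hpF⟩
  refine ⟨Q, hQc, hQi, ⟨fun p hp γ hγ => ?_, fun p hp h0 => ?_⟩, hQF,
    fun p hp => hle₂ ⟨hle hp, hPF p hp⟩, fun x hx => ?_⟩
  · exact hskel _ (Or.inr ⟨γ, rfl⟩) (hF.s_mem _ (hQF p hp) γ hγ)
  · obtain ⟨c, hc, hcF⟩ := hF.res_mem _ (hQF p hp) h0
    exact ⟨c, hc, hskel _ (Or.inl ⟨c, rfl⟩) hcF⟩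
  by_contra hcon
  push Not at hcon
  obtain ⟨P', h1, h2, h3, h4, h5⟩ := exists_immediate_step hw hF hQc hQi hQF hskel hx hcon
  exact h5 (le_antisymm (hQ.le_of_ge ⟨h1, h2, h3⟩ h4) h4)

/-- The data carried along the back-and-forth argument. -/
def IsCountablePartial (D : HenselData K k Γ) (E : HenselData L k Γ) (P : Subring (K × L)) :
    Prop :=
  Compat D E P ∧ InvClosed P ∧ Skel D E P ∧ (P : Set (K × L)).Countable

/-- **Forth**: a countable partial isomorphism extends to any given element. -/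
theorem IsCountablePartial.forth {P : Subring (K × L)} (hP : IsCountablePartial D E P)
    (hw : HasPseudoLimits E.v) (x : K) :
    ∃ P', IsCountablePartial D E P' ∧ P ≤ P' ∧ ∃ y, (x, y) ∈ P' := by
  obtain ⟨hc, hi, hs, hcount⟩ := hP
  obtain ⟨F, hF, hSF⟩ := exists_closedSub D ((hcount.image Prod.fst).insert x)
  obtain ⟨P', h1, h2, h3, h4, h5, h6⟩ :=
    exists_extension hw hF hc hi hs fun p hp => hSF (Or.inr ⟨p, hp, rfl⟩)
  refine ⟨P', ⟨h1, h2, h3, ?_⟩, h5, h6 x (hSF (Or.inl rfl))⟩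
  exact Set.MapsTo.countable_of_injOn (f := Prod.fst) (fun p hp => h4 p hp)
    (fun p hp q hq e => Prod.ext e (h1.snd_eq hp hq e)) hF.countable

/-- **Back**: the symmetric statement. -/
theorem IsCountablePartial.back {P : Subring (K × L)} (hP : IsCountablePartial D E P)
    (hv : HasPseudoLimits D.v) (y : L) :
    ∃ P', IsCountablePartial D E P' ∧ P ≤ P' ∧ ∃ x, (x, y) ∈ P' := by
  obtain ⟨hc, hi, hs, hcount⟩ := hP
  obtain ⟨h1, h2, h3⟩ := flip_graph hc hi hs
  have hswap : ∀ Q : Subring (K × L), (flipGraph Q : Set (L × K)) = Prod.swap ⁻¹' Q := fun _ => rfl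
  obtain ⟨Q, ⟨q1, q2, q3, q4⟩, hle, x, hx⟩ :=
    IsCountablePartial.forth (D := E) (E := D) ⟨h1, h2, h3, by
      rw [hswap]
      exact hcount.preimage Prod.swap_injective⟩ hv y
  obtain ⟨r1, r2, r3⟩ := flip_graph q1 q2 q3
  exact ⟨flipGraph Q, ⟨r1, r2, r3, q4.preimage Prod.swap_injective⟩, fun p hp => hle hp, x, hx⟩

end Fermat.Agent.AxKochen
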