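import Fermat.Agent.AxKochen.CoefficientField
import Fermat.Agent.AxKochen.Embedding
import Mathlib.Order.Filter.FilterProduct
import Mathlib.RingTheory.Ideal.Quotient.Basic
import Mathlib.Data.Nat.Find

/-!
# Ultraproducts of discretely valued fields
-/

set_option autoImplicit false

noncomputable section

open Filter Polynomial

namespace Fermat.Agent.AxKochen

section Field

variable {I : Type} (U : Ultrafilter I) (F : I → Type) [∀ i, Field (F i)]

/-- The families vanishing on a large set. -/
def ultraKer : Ideal (Π i, F i) where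
  carrier := {x | ∀ᶠ i in (U : Filter I), x i = 0}
  zero_mem' := Eventually.of_forall fun _ => rfl
  add_mem' := fun {a b} ha hb => (ha.and hb).mono fun i h => by simp [h.1, h.2]
  smul_mem' := fun c x hx => hx.mono fun i h => by simp [h]

instance ultraKer_isMaximal : (ultraKer U F).IsMaximal := by
  classical
  refine Ideal.isMaximal_iff.2 ⟨fun h => ?_, fun J x hJ hx hxJ => ?_⟩
  · obtain ⟨i, hi⟩ := (show ∀ᶠ i in (U : Filter I), (1 : Π i, F i) i = 0 from h).exists
    exact one_ne_zero hi
  have hx' : ∀ᶠ i in (U : Filter I), x i ≠ 0 :=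
    (U.em fun i => x i = 0).resolve_left hx
  have h1 : (1 - x * fun i => (x i)⁻¹) ∈ J := hJ (hx'.mono fun i hi => by simp [hi])
  simpa using J.add_mem h1 (J.mul_mem_right (fun i => (x i)⁻¹) hxJ)

/-- The ultraproduct of fields. -/
abbrev UltraField := (Π i, F i) ⧸ ultraKer U F

instance UltraField.instField : Field (UltraField U F) :=
  Ideal.Quotient.field _

/-- The quotient map. -/
abbrev umk : (Π i, F i) →+* UltraField U F :=
  Ideal.Quotient.mk _

variable {U F}

theorem umk_eq_umk {x y : Π i, F i} :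
    umk U F x = umk U F y ↔ ∀ᶠ i in (U : Filter I), x i = y i := by
  rw [Ideal.Quotient.eq]
  exact eventually_congr (Eventually.of_forall fun i => sub_eq_zero)

theorem umk_eq_zero {x : Π i, F i} : umk U F x = 0 ↔ ∀ᶠ i in (U : Filter I), x i = 0 := by
  rw [← map_zero (umk U F), umk_eq_umk]
  rfl

theorem umk_ne_zero {x : Π i, F i} : umk U F x ≠ 0 ↔ ∀ᶠ i in (U : Filter I), x i ≠ 0 := by
  rw [Ne, umk_eq_zero, ← Ultrafilter.eventually_not]

theorem umk_surjective : Function.Surjective (umk U F) :=
  Ideal.Quotient.mk_surjective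

theorem ultraField_charZero (h : ∀ n : ℕ, n ≠ 0 → ∀ᶠ i in (U : Filter I), (n : F i) ≠ 0) :
    CharZero (UltraField U F) :=
  charZero_of_inj_zero fun n hn => by
    by_contra h0
    rw [← map_natCast (umk U F), umk_eq_zero] at hn
    obtain ⟨i, h1, h2⟩ := (hn.and (h n h0)).exists
    exact h2 (by simpa using h1)

end Field

/-- A discretely valued henselian field with a given residue field. -/
structure LocalData (F R : Type) [Field F] [Field R] where
  v : AddValuation F (WithTop ℤ)
  res : F → R
  res_add : ∀ x y, 0 ≤ v x → 0 ≤ v y → res (x + y) = res x + res y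
  res_mul : ∀ x y, 0 ≤ v x → 0 ≤ v y → res (x * y) = res x * res y
  res_one : res 1 = 1
  res_eq_zero : ∀ x, 0 ≤ v x → (res x = 0 ↔ 0 < v x)
  res_surj : ∀ c, ∃ x, 0 ≤ v x ∧ res x = c
  uniformizer : F
  v_uniformizer : v uniformizer = (1 : ℤ)
  hensel : ∀ (f : F[X]) (a : F), f.Monic → (∀ j, 0 ≤ v (f.coeff j)) → 0 ≤ v a →
    0 < v (f.eval a) → v (f.derivative.eval a) = 0 → ∃ z, f.eval z = 0 ∧ 0 < v (z - a)

theorem coe_untopD_zero {a : WithTop ℤ} (h : a ≠ ⊤) : ((a.untopD 0 : ℤ) : WithTop ℤ) = a := by
  obtain ⟨b, rfl⟩ := WithTop.ne_top_iff_exists.1 h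
  rfl

section Valued

variable {I : Type} (U : Ultrafilter I) {F R : I → Type} [∀ i, Field (F i)] [∀ i, Field (R i)]
  (d : ∀ i, LocalData (F i) (R i))

/-- The value group of the ultraproduct. -/
abbrev UltraInt := Germ (U : Filter I) ℤ

/-- The values of a family. -/
def germVal (x : Π i, F i) : UltraInt U :=
  ((fun i => ((d i).v (x i)).untopD 0 : I → ℤ) : UltraInt U)

variable {U d}

theorem germVal_spec {x : Π i, F i} (hx : umk U F x ≠ 0) :
    ∀ᶠ i in (U : Filter I), (d i).v (x i) = ((((d i).v (x i)).untopD 0 : ℤ) : WithTop ℤ) :=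
  (umk_ne_zero.1 hx).mono fun i hi => (coe_untopD_zero ((d i).v.ne_top_iff.2 hi)).symm

variable (U d) in
open scoped Classical in
/-- The values in the ultraproduct, as a function. -/
def ultraValFun (z : UltraField U F) : WithTop (UltraInt U) :=
  if z = 0 then ⊤ else ((germVal U d (Function.surjInv umk_surjective z) : UltraInt U) : WithTop _)

theorem ultraValFun_umk (x : Π i, F i) :
    umk U F x ≠ 0 → ultraValFun U d (umk U F x) = ((germVal U d x : UltraInt U) : WithTop _) := by
  intro hx
  rw [ultraValFun, if_neg hx, WithTop.coe_inj]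
  refine Germ.coe_eq.2 ((umk_eq_umk.1 (Function.surjInv_eq umk_surjective (umk U F x))).mono
    fun i hi => ?_)
  simp only [hi]

theorem ultraValFun_le_iff (x y : Π i, F i) :
    ultraValFun U d (umk U F x) ≤ ultraValFun U d (umk U F y) ↔
      ∀ᶠ i in (U : Filter I), (d i).v (x i) ≤ (d i).v (y i) := by
  by_cases hy : umk U F y = 0
  · rw [ultraValFun.eq_def (z := umk U F y), if_pos hy]
    exact iff_of_true le_top ((umk_eq_zero.1 hy).mono fun i hi => by simp [hi])
  by_cases hx : umk U F x = 0
  · rw [ultraValFun.eq_def (z := umk U F x), if_pos hx, ultraValFun_umk y hy]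
    refine iff_of_false (not_le.2 (WithTop.coe_lt_top _)) fun h => ?_
    obtain ⟨i, ⟨h1, h2⟩, h3⟩ := ((h.and (umk_eq_zero.1 hx)).and (umk_ne_zero.1 hy)).exists
    rw [h2, (d i).v.map_zero, top_le_iff, (d i).v.top_iff] at h1
    exact h3 h1
  rw [ultraValFun_umk x hx, ultraValFun_umk y hy, WithTop.coe_le_coe, germVal, germVal,
    Germ.coe_le]
  refine eventually_congr (((germVal_spec (d := d) hx).and (germVal_spec (d := d) hy)).mono
    fun i h => ?_)
  simp only
  conv_rhs => rw [h.1, h.2]
  exact WithTop.coe_le_coe.symm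

variable (U d) in
/-- The valuation of the ultraproduct. -/
def ultraVal : AddValuation (UltraField U F) (WithTop (UltraInt U)) :=
  AddValuation.of (ultraValFun U d) (if_pos rfl)
    (by
      rw [← map_one (umk U F), ultraValFun_umk 1 (by rw [map_one]; exact one_ne_zero),
        ← WithTop.coe_zero, WithTop.coe_inj, germVal]
      exact congrArg Germ.ofFun (funext fun i => by simp))
    (fun a b => by
      obtain ⟨x, rfl⟩ := umk_surjective a
      obtain ⟨y, rfl⟩ := umk_surjective b
      rw [← map_add, min_le_iff, ultraValFun_le_iff, ultraValFun_le_iff,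
        ← Ultrafilter.eventually_or]
      exact Eventually.of_forall fun i => min_le_iff.1 ((d i).v.map_add _ _))
    (fun a b => by
      obtain ⟨x, rfl⟩ := umk_surjective a
      obtain ⟨y, rfl⟩ := umk_surjective b
      by_cases hx : umk U F x = 0
      · simp [ultraValFun, hx]
      by_cases hy : umk U F y = 0
      · simp [ultraValFun, hy]
      rw [← map_mul, ultraValFun_umk _ (by rw [map_mul]; exact mul_ne_zero hx hy),
        ultraValFun_umk x hx, ultraValFun_umk y hy, ← WithTop.coe_add, WithTop.coe_inj, germVal,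
        germVal, germVal, ← Germ.coe_add]
      refine Germ.coe_eq.2 (((germVal_spec (d := d) hx).and (germVal_spec (d := d) hy)).mono
        fun i h => ?_)
      simp only [Pi.mul_apply, Pi.add_apply, (d i).v.map_mul]
      rw [h.1, h.2, ← WithTop.coe_add]
      rfl)

theorem ultraVal_le_iff (x y : Π i, F i) :
    ultraVal U d (umk U F x) ≤ ultraVal U d (umk U F y) ↔
      ∀ᶠ i in (U : Filter I), (d i).v (x i) ≤ (d i).v (y i) :=
  ultraValFun_le_iff x y

theorem ultraVal_lt_iff (x y : Π i, F i) :
    ultraVal U d (umk U F x) < ultraVal U d (umk U F y) ↔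
      ∀ᶠ i in (U : Filter I), (d i).v (x i) < (d i).v (y i) := by
  simp only [← not_le, ultraVal_le_iff, Ultrafilter.eventually_not]

theorem zpow_uniformizer_val (i : I) (n : ℤ) :
    (d i).v ((d i).uniformizer ^ n) = (n : WithTop ℤ) := by
  have h0 : (d i).uniformizer ≠ 0 := ne_zero_of_val _ (d i).v_uniformizer
  obtain ⟨m, rfl | rfl⟩ := n.eq_nat_or_neg
  · rw [zpow_natCast, val_pow _ (d i).v_uniformizer, nsmul_eq_mul, mul_one]
  · rw [zpow_neg, zpow_natCast, val_inv _ (val_pow _ (d i).v_uniformizer m), nsmul_eq_mul, mul_one]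

variable (U d) in
/-- The cross-section. -/
def ultraSec (γ : UltraInt U) : UltraField U F :=
  Germ.liftOn γ (fun g => umk U F fun i => (d i).uniformizer ^ g i) fun g g' h =>
    umk_eq_umk.2 (h.mono fun i hi => by rw [hi])

theorem ultraSec_coe (g : I → ℤ) :
    ultraSec U d (g : UltraInt U) = umk U F fun i => (d i).uniformizer ^ g i :=
  rfl

theorem ultraVal_sec (γ : UltraInt U) : ultraVal U d (ultraSec U d γ) = γ := by
  induction γ using Germ.inductionOn with
  | h g =>
    have hne : ∀ i, (d i).uniformizer ^ g i ≠ 0 := fun i =>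
      zpow_ne_zero _ (ne_zero_of_val _ (d i).v_uniformizer)
    rw [ultraSec_coe]
    refine (ultraValFun_umk _ (umk_ne_zero.2 (Eventually.of_forall hne))).trans ?_
    rw [WithTop.coe_inj, germVal]
    exact congrArg Germ.ofFun (funext fun i => by simp [zpow_uniformizer_val])

theorem le_ultraVal_iff (g : I → ℤ) (x : Π i, F i) :
    ((g : UltraInt U) : WithTop (UltraInt U)) ≤ ultraVal U d (umk U F x) ↔
      ∀ᶠ i in (U : Filter I), (g i : WithTop ℤ) ≤ (d i).v (x i) := by
  rw [← ultraVal_sec (d := d), ultraSec_coe, ultraVal_le_iff]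
  simp only [zpow_uniformizer_val]

theorem ultraVal_nonneg_iff (x : Π i, F i) :
    0 ≤ ultraVal U d (umk U F x) ↔ ∀ᶠ i in (U : Filter I), 0 ≤ (d i).v (x i) :=
  le_ultraVal_iff (fun _ => 0) x

theorem ultraVal_pos_iff (x : Π i, F i) :
    0 < ultraVal U d (umk U F x) ↔ ∀ᶠ i in (U : Filter I), 0 < (d i).v (x i) := by
  have := ultraVal_lt_iff (U := U) (d := d) 1 x
  rwa [map_one, (ultraVal U d).map_one, show (∀ᶠ i in (U : Filter I), (d i).v ((1 : Π i, F i) i) <
    (d i).v (x i)) = ∀ᶠ i in (U : Filter I), 0 < (d i).v (x i) by simp] at this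

theorem ultraVal_eq_zero_iff (x : Π i, F i) :
    ultraVal U d (umk U F x) = 0 ↔ ∀ᶠ i in (U : Filter I), (d i).v (x i) = 0 := by
  rw [eq_comm, le_antisymm_iff, ultraVal_nonneg_iff, ← (ultraVal U d).map_one, ← map_one (umk U F),
    ultraVal_le_iff, ← eventually_and]
  refine eventually_congr (Eventually.of_forall fun i => ?_)
  rw [Pi.one_apply, (d i).v.map_one, eq_comm, le_antisymm_iff, and_comm]

/-- Hensel's lemma in the ultraproduct. -/
theorem ultra_hensel (f : (UltraField U F)[X]) (a : UltraField U F) (hf : f.Monic)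
    (hc : ∀ j, 0 ≤ ultraVal U d (f.coeff j)) (ha : 0 ≤ ultraVal U d a)
    (h0 : 0 < ultraVal U d (f.eval a)) (h1 : ultraVal U d (f.derivative.eval a) = 0) :
    ∃ z, f.eval z = 0 ∧ 0 < ultraVal U d (z - a) := by
  classical
  obtain ⟨a, rfl⟩ := umk_surjective a
  choose c hcf using fun j => umk_surjective (U := U) (F := F) (f.coeff j)
  set n := f.natDegree
  set f₀ : (Π i, F i)[X] := X ^ n + ∑ j ∈ Finset.range n, C (c j) * X ^ j
  have hf₀ : f₀.map (umk U F) = f := by
    simp only [f₀, Polynomial.map_add, Polynomial.map_pow, map_X, Polynomial.map_sum,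
      Polynomial.map_mul, Polynomial.map_C, hcf]
    exact hf.as_sum.symm
  have hev : ∀ (p : (Π i, F i)[X]) (x : Π i, F i) (i : I),
      p.eval x i = (p.map (Pi.evalRingHom F i)).eval (x i) := fun p x i => by
    rw [eval_map]
    exact (eval₂_at_apply (Pi.evalRingHom F i) x).symm
  have hmk : ∀ (p : (Π i, F i)[X]) (x : Π i, F i),
      (p.map (umk U F)).eval (umk U F x) = umk U F (p.eval x) := fun p x => by
    rw [eval_map, eval₂_at_apply]
  rw [← hf₀, hmk, ultraVal_pos_iff] at h0
  rw [← hf₀, derivative_map, hmk, ultraVal_eq_zero_iff] at h1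
  have hcE : ∀ᶠ i in (U : Filter I), ∀ j ∈ Finset.range n, 0 ≤ (d i).v (c j i) :=
    (eventually_all_finset _).2 fun j _ => (ultraVal_nonneg_iff _).1 (hcf j ▸ hc j)
  have hroot : ∀ i, ∃ z, (0 < (d i).v (f₀.eval a i) ∧ (d i).v (f₀.derivative.eval a i) = 0 ∧
      (∀ j ∈ Finset.range n, 0 ≤ (d i).v (c j i)) ∧ 0 ≤ (d i).v (a i)) →
      (f₀.map (Pi.evalRingHom F i)).eval z = 0 ∧ 0 < (d i).v (z - a i) := fun i => by
    by_cases h : 0 < (d i).v (f₀.eval a i) ∧ (d i).v (f₀.derivative.eval a i) = 0 ∧
        (∀ j ∈ Finset.range n, 0 ≤ (d i).v (c j i)) ∧ 0 ≤ (d i).v (a i)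
    · obtain ⟨h0, h1, hcj, hai⟩ := h
      rw [hev] at h0 h1
      rw [← derivative_map] at h1
      have hmap : f₀.map (Pi.evalRingHom F i) =
          X ^ n + ∑ j ∈ Finset.range n, C (c j i) * X ^ j := by
        simp [f₀, Polynomial.map_sum]
      obtain ⟨z, hz⟩ := (d i).hensel (f₀.map (Pi.evalRingHom F i)) (a i)
        (by
          rw [hmap]
          exact monic_X_pow_add ((degree_sum_le _ _).trans_lt ((Finset.sup_lt_iff
            (WithBot.bot_lt_coe _)).2 fun j hj => (degree_C_mul_X_pow_le _ _).trans_lt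
              (Nat.cast_lt.2 (Finset.mem_range.1 hj)))))
        (fun l => by
          rw [hmap, coeff_add, coeff_X_pow, finsetSum_coeff]
          refine (d i).v.map_le_add (by split_ifs <;> simp) ((d i).v.map_le_sum fun j hj => ?_)
          rw [coeff_C_mul, coeff_X_pow]
          split_ifs
          · simpa using hcj j hj
          · simp)
        hai h0 h1
      exact ⟨z, fun _ => hz⟩
    · exact ⟨0, fun h' => absurd h' h⟩
  choose z hz using hroot
  have hall : ∀ᶠ i in (U : Filter I),
      (f₀.map (Pi.evalRingHom F i)).eval (z i) = 0 ∧ 0 < (d i).v (z i - a i) :=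
    (h0.and (h1.and (hcE.and ((ultraVal_nonneg_iff a).1 ha)))).mono fun i h => hz i h
  refine ⟨umk U F z, ?_, ?_⟩
  · rw [← hf₀, hmk, umk_eq_zero]
    exact hall.mono fun i h => (hev f₀ z i).trans h.1
  · rw [← map_sub, ultraVal_pos_iff]
    exact hall.mono fun i h => h.2

/-- **Countable saturation.** -/
theorem ultra_hasPseudoLimits (r : I → ℕ) (hr : ∀ n, ∀ᶠ i in (U : Filter I), n ≤ r i) :
    HasPseudoLimits (ultraVal U d) := by
  classical
  intro a γ h
  choose a' ha' using fun n => umk_surjective (U := U) (F := F) (a n)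
  choose g hg using fun n => Quotient.exists_rep (γ n)
  let A : ℕ → I → Prop := fun N i =>
    ∀ n ≤ N, ∀ m ≤ N, n ≤ m → (g n i : WithTop ℤ) ≤ (d i).v (a' m i - a' n i)
  have hA : ∀ N, ∀ᶠ i in (U : Filter I), A N i := fun N => by
    refine (eventually_all_finite (Set.finite_le_nat N)).2 fun n _ =>
      (eventually_all_finite (Set.finite_le_nat N)).2 fun m _ => ?_
    by_cases hnm : n ≤ m
    · refine ((le_ultraVal_iff (d := d) (g n) (a' m - a' n)).1 ?_).mono fun i hi _ => hi
      rw [map_sub, ha', ha']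
      have := h n m hnm
      rw [← hg n] at this
      exact this
    · exact Eventually.of_forall fun i h => absurd h hnm
  let N : I → ℕ := fun i => Nat.findGreatest (fun N => A N i) (r i)
  refine ⟨umk U F fun i => a' (N i) i, fun n => ?_⟩
  rw [← ha', ← map_sub, ← hg n]
  refine (le_ultraVal_iff (g n) _).2 (((hA n).and (hr n)).mono fun i ⟨hi, hri⟩ => ?_)
  have hnN : n ≤ N i := Nat.le_findGreatest hri hi
  exact Nat.findGreatest_spec (P := fun N => A N i) hri hi n hnN (N i) le_rfl hnN

theorem ultra_integral_rep (x : integralRing (ultraVal U d)) :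
    ∃ y : Π i, F i, umk U F y = x ∧ ∀ i, 0 ≤ (d i).v (y i) := by
  classical
  obtain ⟨y, hy⟩ := umk_surjective (x : UltraField U F)
  have he : ∀ᶠ i in (U : Filter I), 0 ≤ (d i).v (y i) :=
    (ultraVal_nonneg_iff y).1 (hy.symm ▸ x.2)
  refine ⟨fun i => if 0 ≤ (d i).v (y i) then y i else 0, ?_, fun i => ?_⟩
  · rw [← hy, umk_eq_umk]
    exact he.mono fun i hi => if_pos hi
  · dsimp only
    split_ifs with h
    · exact h
    · simp

variable (U d) in
/-- The residue map of the ultraproduct. -/
def ultraRes : integralRing (ultraVal U d) → UltraField U R := fun x =>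
  umk U R fun i => (d i).res ((ultra_integral_rep x).choose i)

theorem ultraRes_eq (x : integralRing (ultraVal U d)) {y : Π i, F i} (hy : umk U F y = x) :
    ultraRes U d x = umk U R fun i => (d i).res (y i) :=
  umk_eq_umk.2 ((umk_eq_umk.1 ((ultra_integral_rep x).choose_spec.1.trans hy.symm)).mono
    fun i hi => by rw [hi])

variable (U d) in
/-- The residue map, as a ring homomorphism. -/
def ultraResHom : integralRing (ultraVal U d) →+* UltraField U R where
  toFun := ultraRes U d
  map_one' := by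
    rw [ultraRes_eq 1 (y := 1) (map_one _), ← map_one (umk U R)]
    exact congrArg _ (funext fun i => (d i).res_one)
  map_zero' := by
    rw [ultraRes_eq 0 (y := 0) (map_zero _), umk_eq_zero]
    exact Eventually.of_forall fun i => ((d i).res_eq_zero 0 (by simp)).2 (by simp)
  map_mul' a b := by
    obtain ⟨x, hx, hx0⟩ := ultra_integral_rep a
    obtain ⟨y, hy, hy0⟩ := ultra_integral_rep b
    rw [ultraRes_eq a hx, ultraRes_eq b hy, ultraRes_eq (a * b) (y := x * y) (by
      rw [map_mul, hx, hy]; rfl), ← map_mul]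
    exact congrArg _ (funext fun i => (d i).res_mul _ _ (hx0 i) (hy0 i))
  map_add' a b := by
    obtain ⟨x, hx, hx0⟩ := ultra_integral_rep a
    obtain ⟨y, hy, hy0⟩ := ultra_integral_rep b
    rw [ultraRes_eq a hx, ultraRes_eq b hy, ultraRes_eq (a + b) (y := x + y) (by
      rw [map_add, hx, hy]; rfl), ← map_add]
    exact congrArg _ (funext fun i => (d i).res_add _ _ (hx0 i) (hy0 i))

variable (U d) in
theorem exists_ultra_coefficientField [CharZero (UltraField U R)] :
    ∃ ι : UltraField U R →+* UltraField U F, (∀ c, c ≠ 0 → ultraVal U d (ι c) = 0) ∧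
      ∀ x, ultraVal U d x = 0 → ∃ c, 0 < ultraVal U d (x - ι c) := by
  refine exists_coefficientField (ultraVal U d) (ultraResHom U d) (fun c => ?_) (fun x => ?_)
    ultra_hensel
  · obtain ⟨c, rfl⟩ := umk_surjective c
    choose y hy hyc using fun i => (d i).res_surj (c i)
    refine ⟨⟨umk U F y, (ultraVal_nonneg_iff y).2 (Eventually.of_forall hy)⟩, ?_⟩
    exact (ultraRes_eq _ rfl).trans (congrArg _ (funext hyc))
  · obtain ⟨y, hy, hy0⟩ := ultra_integral_rep x
    show ultraRes U d x = 0 ↔ _
    rw [ultraRes_eq x hy, umk_eq_zero, ← hy, ultraVal_pos_iff]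
    exact eventually_congr (Eventually.of_forall fun i => (d i).res_eq_zero _ (hy0 i))

variable (U d) in
/-- The henselian structure of the ultraproduct. -/
def ultraData [CharZero (UltraField U R)] :
    HenselData (UltraField U F) (UltraField U R) (UltraInt U) where
  v := ultraVal U d
  ι := (exists_ultra_coefficientField U d).choose
  v_ι := (exists_ultra_coefficientField U d).choose_spec.1
  approx := (exists_ultra_coefficientField U d).choose_spec.2
  s := ultraSec U d
  v_s := ultraVal_sec
  s_add γ δ := Germ.inductionOn₂ γ δ fun g h => by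
    rw [← Germ.coe_add, ultraSec_coe, ultraSec_coe, ultraSec_coe, ← map_mul]
    exact congrArg _ (funext fun i => zpow_add₀ (ne_zero_of_val _ (d i).v_uniformizer) _ _)
  hensel := ultra_hensel

end Valued

end Fermat.Agent.AxKochen
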