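import Fermat.Agent.AxKochen.Embedding
import Fermat.Agent.AxKochen.Ultra
import Mathlib.ModelTheory.Algebra.Ring.Basic
import Mathlib.ModelTheory.Semantics

/-!
# First-order sentences in the language of rings
-/

set_option autoImplicit false

noncomputable section

open FirstOrder FirstOrder.Language FirstOrder.Ring Filter

namespace Fermat.Agent.AxKochen

universe u v w

theorem realize_map {R S : Type*} [CommRing R] [CommRing S] [CompatibleRing R] [CompatibleRing S]
    (φ : R →+* S) {α : Type} (t : Language.ring.Term α) (x : α → R) :
    t.realize (fun a => φ (x a)) = φ (t.realize x) := by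
  induction t with
  | var a => rfl
  | func f ts ih =>
    simp only [Term.realize, ih]
    cases f <;> simp

section BackAndForth

variable {K L : Type u} {k : Type v} {Γ : Type w} [Field K] [Field L] [Field k] [CharZero k]
  [AddCommGroup Γ] [LinearOrder Γ] [IsOrderedAddMonoid Γ] [CompatibleRing K] [CompatibleRing L]
  {D : HenselData K k Γ} {E : HenselData L k Γ}

/-- **Back and forth**: formulas agree along countable partial isomorphisms. -/
theorem realize_iff_of_partial (hv : HasPseudoLimits D.v) (hw : HasPseudoLimits E.v) {n : ℕ}
    (φ : Language.ring.BoundedFormula Empty n) :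
    ∀ {P : Subring (K × L)}, IsCountablePartial D E P → ∀ (a : Fin n → K) (b : Fin n → L),
      (∀ i, (a i, b i) ∈ P) → (φ.Realize default a ↔ φ.Realize default b) := by
  induction φ with
  | falsum => exact fun _ _ _ _ => Iff.rfl
  | equal t₁ t₂ =>
    intro P hP a b hab
    letI := compatibleRingOfRing P
    let x : Empty ⊕ Fin _ → P := Sum.elim Empty.elim fun i => ⟨(a i, b i), hab i⟩
    have h1 : ∀ t : Language.ring.Term (Empty ⊕ Fin _),
        t.realize (Sum.elim default a) = ((t.realize x : P) : K × L).1 := fun t => by
      rw [show Sum.elim default a = fun i => ((RingHom.fst K L).comp P.subtype) (x i) by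
        funext i; rcases i with e | i
        · exact e.elim
        · rfl]
      exact realize_map ((RingHom.fst K L).comp P.subtype) t x
    have h2 : ∀ t : Language.ring.Term (Empty ⊕ Fin _),
        t.realize (Sum.elim default b) = ((t.realize x : P) : K × L).2 := fun t => by
      rw [show Sum.elim default b = fun i => ((RingHom.snd K L).comp P.subtype) (x i) by
        funext i; rcases i with e | i
        · exact e.elim
        · rfl]
      exact realize_map ((RingHom.snd K L).comp P.subtype) t x
    show t₁.realize _ = t₂.realize _ ↔ t₁.realize _ = t₂.realize _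
    rw [h1, h1, h2, h2]
    exact ⟨hP.1.snd_eq (t₁.realize x).2 (t₂.realize x).2,
      hP.1.fst_eq (t₁.realize x).2 (t₂.realize x).2⟩
  | rel R ts => exact isEmptyElim R
  | imp f₁ f₂ ih₁ ih₂ =>
    intro P hP a b hab
    exact imp_congr (ih₁ hP a b hab) (ih₂ hP a b hab)
  | all f ih =>
    intro P hP a b hab
    refine ⟨fun h y => ?_, fun h x => ?_⟩
    · obtain ⟨P', hP', hle, x, hx⟩ := hP.back hv y
      exact (ih hP' (Fin.snoc a x) (Fin.snoc b y) (Fin.lastCases (by simpa using hx)
        fun i => by simpa using hle (hab i))).1 (h x)
    · obtain ⟨P', hP', hle, y, hy⟩ := hP.forth hw x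
      exact (ih hP' (Fin.snoc a x) (Fin.snoc b y) (Fin.lastCases (by simpa using hy)
        fun i => by simpa using hle (hab i))).2 (h y)

end BackAndForth

/-- A sentence does not depend on the assignment. -/
theorem sentence_realize_iff {M : Type*} [Language.ring.Structure M] (φ : Language.ring.Sentence)
    (x : Empty → M) (a : Fin 0 → M) : M ⊨ φ ↔ BoundedFormula.Realize φ x a :=
  iff_of_eq (congrArg₂ (BoundedFormula.Realize (M := M) φ) (Subsingleton.elim _ _)
    (Subsingleton.elim _ _))

section Los

variable {I : Type} {U : Ultrafilter I} {F : I → Type} [∀ i, Field (F i)]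
  [∀ i, CompatibleRing (F i)] [CompatibleRing (UltraField U F)]

theorem realize_term_umk {α : Type} (t : Language.ring.Term α) (x : α → Π i, F i) :
    t.realize (fun a => umk U F (x a)) = umk U F fun i => t.realize fun a => x a i := by
  letI := compatibleRingOfRing (Π i, F i)
  rw [realize_map (umk U F) t x]
  congr 1
  funext i
  exact (realize_map (Pi.evalRingHom F i) t x).symm

/-- **Łoś's theorem** for rings. -/
theorem realize_ultra {n : ℕ} (φ : Language.ring.BoundedFormula Empty n) :
    ∀ a : Fin n → Π i, F i, (φ.Realize default (fun j => umk U F (a j)) ↔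
      ∀ᶠ i in (U : Filter I), φ.Realize default fun j => a j i) := by
  induction φ with
  | falsum => exact fun a => ⟨fun h => h.elim, fun h => h.exists.choose_spec.elim⟩
  | equal t₁ t₂ =>
    intro a
    have h : ∀ t : Language.ring.Term (Empty ⊕ Fin _),
        t.realize (Sum.elim default fun j => umk U F (a j)) =
          umk U F fun i => t.realize (Sum.elim default fun j => a j i) := fun t => by
      rw [show (Sum.elim default fun j => umk U F (a j)) =
        fun q => umk U F (Sum.elim (fun e => Empty.elim e) a q) by
          funext q; rcases q with e | j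
          · exact e.elim
          · rfl, realize_term_umk]
      congr 1
      funext i
      congr 1
      funext q
      rcases q with e | j
      · exact e.elim
      · rfl
    show t₁.realize _ = t₂.realize _ ↔ _
    rw [h, h]
    exact umk_eq_umk
  | rel R ts => exact isEmptyElim R
  | imp f₁ f₂ ih₁ ih₂ =>
    intro a
    exact (imp_congr (ih₁ a) (ih₂ a)).trans Ultrafilter.eventually_imp.symm
  | all f ih =>
    intro a
    have hsnoc : ∀ c : Π i, F i, (fun j => umk U F (Fin.snoc (α := fun _ => Π i, F i) a c j)) =
        Fin.snoc (fun j => umk U F (a j)) (umk U F c) := fun c =>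
      Fin.comp_snoc (umk U F) a c
    have hsnoc' : ∀ (c : Π i, F i) (i : I), (fun j => Fin.snoc (α := fun _ => Π i, F i) a c j i) =
        Fin.snoc (fun j => a j i) (c i) := fun c i =>
      Fin.comp_snoc (fun x : Π i, F i => x i) a c
    refine ⟨fun h => ?_, fun h z => ?_⟩
    · by_contra hcon
      have hbad : ∀ i, ∃ c : F i, (∃ c, ¬ f.Realize default (Fin.snoc (fun j => a j i) c)) →
          ¬ f.Realize default (Fin.snoc (fun j => a j i) c) := fun i => by
        by_cases hi : ∃ c, ¬ f.Realize default (Fin.snoc (fun j => a j i) c)
        · obtain ⟨c, hc⟩ := hi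
          exact ⟨c, fun _ => hc⟩
        · exact ⟨0, fun h' => absurd h' hi⟩
      choose c hc using hbad
      have h' := (ih (Fin.snoc a c)).1 (hsnoc c ▸ h (umk U F c))
      refine hcon (h'.mono fun i hi => ?_)
      by_contra hall
      rw [hsnoc'] at hi
      exact hc i (not_forall.1 hall) hi
    · obtain ⟨c, rfl⟩ := umk_surjective z
      have := (ih (Fin.snoc a c)).2 (h.mono fun i hi => hsnoc' c i ▸ hi (c i))
      exact hsnoc c ▸ this

/-- Sentences. -/
theorem sentence_ultra (φ : Language.ring.Sentence) :
    UltraField U F ⊨ φ ↔ ∀ᶠ i in (U : Filter I), F i ⊨ φ := by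
  have := realize_ultra (U := U) φ (default : Fin 0 → Π i, F i)
  simp only [Sentence.Realize, Formula.Realize]
  refine Iff.trans ?_ (this.trans (eventually_congr (Eventually.of_forall fun i => ?_)))
  · exact iff_of_eq (congrArg₂ (BoundedFormula.Realize (M := UltraField U F) φ)
      (Subsingleton.elim _ _)
      (Subsingleton.elim _ _))
  · exact iff_of_eq (congrArg₂ (BoundedFormula.Realize (M := F i) φ) (Subsingleton.elim _ _)
      (Subsingleton.elim _ _))

end Los

end Fermat.Agent.AxKochen
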