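import Fermat.Agent.AxKochen.Ultra
import Mathlib.NumberTheory.Padics.RingHoms
import Mathlib.RingTheory.LaurentSeries
import Mathlib.RingTheory.Henselian
import Mathlib.RingTheory.AdicCompletion.Completeness
import Mathlib.RingTheory.HahnSeries.Valuation

/-!
# The local fields `ℚ_[p]` and `𝔽_p((t))`
-/

set_option autoImplicit false

noncomputable section

open Polynomial

namespace Fermat.Agent.AxKochen

section OfRing

variable {O F R : Type} [CommRing O] [Field F] [Field R] (v : AddValuation F (WithTop ℤ))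
  (φ : O →+* F) (I : Ideal O) (r : O →+* R)

variable (hφ : Function.Injective φ) (hnn : ∀ x, 0 ≤ v (φ x))
  (hlift : ∀ y, 0 ≤ v y → ∃ x, φ x = y) (hI : ∀ x, x ∈ I ↔ 0 < v (φ x))
  (hr : Function.Surjective r) (hker : ∀ x, r x = 0 ↔ x ∈ I)

open scoped Classical in
/-- The residue of an element, extended by zero. -/
def resOfRing (y : F) : R :=
  if h : 0 ≤ v y then r (hlift y h).choose else 0

include hφ in
theorem resOfRing_apply (x : O) (h : 0 ≤ v (φ x)) : resOfRing v φ r hlift (φ x) = r x := by
  rw [resOfRing, dif_pos h, hφ (hlift _ h).choose_spec]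

/-- Local data from a henselian valuation ring. -/
def LocalData.ofRing [HenselianRing O I] (π : F) (hπ : v π = (1 : ℤ)) : LocalData F R where
  v := v
  res := resOfRing v φ r hlift
  res_add x y hx hy := by
    obtain ⟨a, rfl⟩ := hlift x hx
    obtain ⟨b, rfl⟩ := hlift y hy
    rw [← map_add, resOfRing_apply v φ r hφ hlift _ (hnn _), resOfRing_apply v φ r hφ hlift _ hx,
      resOfRing_apply v φ r hφ hlift _ hy, map_add]
  res_mul x y hx hy := by
    obtain ⟨a, rfl⟩ := hlift x hx
    obtain ⟨b, rfl⟩ := hlift y hy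
    rw [← map_mul φ, resOfRing_apply v φ r hφ hlift _ (hnn _), resOfRing_apply v φ r hφ hlift _ hx,
      resOfRing_apply v φ r hφ hlift _ hy, map_mul]
  res_one := by
    rw [← map_one φ, resOfRing_apply v φ r hφ hlift _ (hnn _), map_one]
  res_eq_zero x hx := by
    obtain ⟨a, rfl⟩ := hlift x hx
    rw [resOfRing_apply v φ r hφ hlift _ hx, hker, hI]
  res_surj c := by
    obtain ⟨a, rfl⟩ := hr c
    exact ⟨φ a, hnn a, resOfRing_apply v φ r hφ hlift _ (hnn a)⟩
  uniformizer := π
  v_uniformizer := hπ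
  hensel f a hf hc ha h0 h1 := by
    obtain ⟨a, rfl⟩ := hlift a ha
    obtain ⟨g, hg, -, hgm⟩ := lifts_and_degree_eq_and_monic (f := φ)
      ((lifts_iff_coeff_lifts _).2 fun j => hlift _ (hc j)) hf
    rw [← hg, eval_map, eval₂_at_apply, ← hI] at h0
    rw [← hg, derivative_map, eval_map, eval₂_at_apply] at h1
    obtain ⟨u, hu⟩ := hlift (φ (g.derivative.eval a))⁻¹ (by rw [v.map_inv, h1, neg_zero])
    have hne : φ (g.derivative.eval a) ≠ 0 := ne_zero_of_val v (γ := 0) (by simpa using h1)
    have hunit : IsUnit (g.derivative.eval a) := IsUnit.of_mul_eq_one u (hφ (by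
      rw [map_mul, hu, map_one, mul_inv_cancel₀ hne]))
    obtain ⟨z, hz, hza⟩ := HenselianRing.is_henselian g hgm a h0 (hunit.map _)
    refine ⟨φ z, ?_, ?_⟩
    · rw [← hg, eval_map, eval₂_at_apply, show g.eval z = 0 from hz, map_zero]
    · rw [← map_sub, ← hI]
      exact hza

end OfRing

theorem padicVal_nonneg_iff {p : ℕ} [Fact p.Prime] (x : ℚ_[p]) :
    0 ≤ Padic.addValuation x ↔ ‖x‖ ≤ 1 := by
  by_cases h : x = 0
  · simp [h]
  · rw [Padic.addValuation.apply h, Padic.norm_le_one_iff_val_nonneg, ← WithTop.coe_zero,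
      WithTop.coe_le_coe]

theorem padicVal_pos_iff {p : ℕ} [Fact p.Prime] (x : ℤ_[p]) :
    x ∈ IsLocalRing.maximalIdeal ℤ_[p] ↔ 0 < Padic.addValuation (x : ℚ_[p]) := by
  have hp : (1 : ℝ) < p := by exact_mod_cast (Fact.out : p.Prime).one_lt
  rw [IsLocalRing.mem_maximalIdeal, PadicInt.mem_nonunits, PadicInt.norm_def]
  have key : ∀ y : ℚ_[p], ‖y‖ < 1 ↔ 0 < Padic.addValuation y := fun y => by
    by_cases h : y = 0
    · simp [h]
    · rw [Padic.addValuation.apply h, Padic.norm_eq_zpow_neg_valuation h, ← zpow_zero (p : ℝ),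
        zpow_lt_zpow_iff_right₀ hp, ← WithTop.coe_zero, WithTop.coe_lt_coe, neg_lt_zero]
  exact key _

/-- The local data of `ℚ_[p]`. -/
def padicLocalData (p : ℕ) [Fact p.Prime] : LocalData ℚ_[p] (ZMod p) :=
  LocalData.ofRing Padic.addValuation PadicInt.Coe.ringHom (IsLocalRing.maximalIdeal ℤ_[p])
    PadicInt.toZMod Subtype.coe_injective (fun x => (padicVal_nonneg_iff _).2 x.2)
    (fun y hy => ⟨⟨y, (padicVal_nonneg_iff y).1 hy⟩, rfl⟩) padicVal_pos_iff
    (ZMod.ringHom_surjective _)
    (fun x => by rw [← PadicInt.ker_toZMod, RingHom.mem_ker])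
    (p : ℚ_[p]) (by
      rw [Padic.addValuation.apply (Nat.cast_ne_zero.2 (Fact.out : p.Prime).ne_zero),
        Padic.valuation_p])

/-- The local data of `k((t))`. -/
def laurentLocalData (k : Type) [Field k] : LocalData (LaurentSeries k) k :=
  LocalData.ofRing (HahnSeries.addVal ℤ k) (HahnSeries.ofPowerSeries ℤ k)
    (Ideal.span {(PowerSeries.X : PowerSeries k)}) PowerSeries.constantCoeff
    HahnSeries.ofPowerSeries_injective
    (fun x => by
      rw [HahnSeries.addVal_apply, HahnSeries.le_orderTop_iff_forall]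
      intro j hj
      rw [← WithTop.coe_zero, WithTop.coe_lt_coe] at hj
      rw [PowerSeries.coeff_coe, if_pos hj])
    (fun y hy => by
      rw [HahnSeries.addVal_apply, HahnSeries.le_orderTop_iff_forall] at hy
      refine ⟨PowerSeries.mk fun n => y.coeff n, HahnSeries.ext (funext fun j => ?_)⟩
      rw [PowerSeries.coeff_coe]
      split_ifs with h
      · exact (hy j (by exact_mod_cast h)).symm
      · rw [PowerSeries.coeff_mk, Int.natAbs_of_nonneg (not_lt.1 h)])
    (fun x => by
      rw [Ideal.mem_span_singleton, PowerSeries.X_dvd_iff, HahnSeries.addVal_apply]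
      constructor
      · intro h
        refine lt_of_lt_of_le (b := ((1 : ℤ) : WithTop ℤ)) (by exact_mod_cast one_pos)
          (HahnSeries.le_orderTop_iff_forall.2 fun j hj => ?_)
        rw [WithTop.coe_lt_coe] at hj
        rw [PowerSeries.coeff_coe]
        split_ifs with hj0
        · rfl
        · rw [show j.natAbs = 0 by omega, PowerSeries.coeff_zero_eq_constantCoeff_apply, h]
      · intro h
        have := HahnSeries.coeff_eq_zero_of_lt_orderTop (i := (0 : ℤ)) (by exact_mod_cast h)
        rw [PowerSeries.coeff_coe, if_neg (lt_irrefl _)] at this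
        simpa using this)
    PowerSeries.constantCoeff_surj
    (fun x => by rw [Ideal.mem_span_singleton, PowerSeries.X_dvd_iff])
    (HahnSeries.single 1 1) (by
      rw [HahnSeries.addVal_apply, HahnSeries.orderTop_single one_ne_zero])

end Fermat.Agent.AxKochen
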