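import Fermat.Agent.AxKochen.Local
import Fermat.Agent.AxKochen.FirstOrder
import Fermat.Agent.LocalForms.Laurent
import Mathlib.Algebra.Order.Antidiag.Finsupp

/-!
# The theorem of Ax and Kochen
-/

set_option autoImplicit false

noncomputable section

open Filter FirstOrder FirstOrder.Language FirstOrder.Ring

namespace Fermat.Agent.AxKochen

universe u v w

theorem fact_prime (p : Nat.Primes) : Fact (p : ℕ).Prime :=
  ⟨p.2⟩

local instance (p : Nat.Primes) : Fact (p : ℕ).Prime :=
  fact_prime p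

theorem HenselData.charZero {K : Type u} {k : Type v} {Γ : Type w} [Field K] [Field k] [CharZero k]
    [AddCommGroup Γ] [LinearOrder Γ] [IsOrderedAddMonoid Γ] (D : HenselData K k Γ) : CharZero K :=
  charZero_of_injective_ringHom D.ι.injective

theorem IsCountablePartial.forth_finset {K L : Type u} {k : Type v} {Γ : Type w} [Field K]
    [Field L] [Field k] [CharZero k] [AddCommGroup Γ] [LinearOrder Γ] [IsOrderedAddMonoid Γ]
    {D : HenselData K k Γ} {E : HenselData L k Γ} {P : Subring (K × L)}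
    (hP : IsCountablePartial D E P) (hw : HasPseudoLimits E.v) (s : Finset K) :
    ∃ P', IsCountablePartial D E P' ∧ P ≤ P' ∧ ∀ x ∈ s, ∃ y, (x, y) ∈ P' := by
  classical
  induction s using Finset.induction with
  | empty => exact ⟨P, hP, le_rfl, by simp⟩
  | insert x t _ ih =>
    obtain ⟨P₁, h₁, hle₁, ht⟩ := ih
    obtain ⟨P₂, h₂, hle₂, hx⟩ := h₁.forth hw x
    refine ⟨P₂, h₂, hle₁.trans hle₂, Finset.forall_mem_insert _ _ _ |>.2 ⟨hx, fun y hy => ?_⟩⟩
    obtain ⟨z, hz⟩ := ht y hy
    exact ⟨z, hle₂ hz⟩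

theorem IsCountablePartial.back_finset {K L : Type u} {k : Type v} {Γ : Type w} [Field K]
    [Field L] [Field k] [CharZero k] [AddCommGroup Γ] [LinearOrder Γ] [IsOrderedAddMonoid Γ]
    {D : HenselData K k Γ} {E : HenselData L k Γ} {P : Subring (K × L)}
    (hP : IsCountablePartial D E P) (hv : HasPseudoLimits D.v) (s : Finset L) :
    ∃ P', IsCountablePartial D E P' ∧ P ≤ P' ∧ ∀ y ∈ s, ∃ x, (x, y) ∈ P' := by
  classical
  induction s using Finset.induction with
  | empty => exact ⟨P, hP, le_rfl, by simp⟩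
  | insert x t _ ih =>
    obtain ⟨P₁, h₁, hle₁, ht⟩ := ih
    obtain ⟨P₂, h₂, hle₂, hx⟩ := h₁.back hv x
    refine ⟨P₂, h₂, hle₁.trans hle₂, Finset.forall_mem_insert _ _ _ |>.2 ⟨hx, fun y hy => ?_⟩⟩
    obtain ⟨z, hz⟩ := ht y hy
    exact ⟨z, hle₂ hz⟩

theorem exists_isCountablePartial {K L : Type u} {k : Type v} {Γ : Type w} [Field K]
    [Field L] [Field k] [CharZero k] [AddCommGroup Γ] [LinearOrder Γ] [IsOrderedAddMonoid Γ]
    (D : HenselData K k Γ) (E : HenselData L k Γ) :
    ∃ P : Subring (K × L), IsCountablePartial D E P := by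
  have := D.charZero
  have := E.charZero
  obtain ⟨P, hc, hi, hs, hr⟩ := exists_start D E
  refine ⟨P, hc, hi, hs, ?_⟩
  exact Set.MapsTo.countable_of_injOn (f := Prod.fst) (t := Set.range (Rat.castHom K))
    (fun p hp => hr p hp) (fun p hp q hq e => Prod.ext e (hc.snd_eq hp hq e))
    (Set.countable_range _)

/-- The ultraproduct of the `p`-adic fields. -/
abbrev PadicUltra (U : Ultrafilter Nat.Primes) := UltraField U fun p => ℚ_[p]

/-- The ultraproduct of the Laurent series fields. -/
abbrev LaurentUltra (U : Ultrafilter Nat.Primes) := UltraField U fun p => LaurentSeries (ZMod p)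

/-- The common residue field. -/
abbrev ResidueUltra (U : Ultrafilter Nat.Primes) := UltraField U fun p => ZMod p

theorem eventually_le_prime {U : Ultrafilter Nat.Primes} (hU : (U : Filter Nat.Primes) ≤ cofinite)
    (n : ℕ) : ∀ᶠ p : Nat.Primes in (U : Filter Nat.Primes), n ≤ (p : ℕ) := by
  refine hU (Filter.eventually_cofinite.2 ?_)
  exact ((Set.finite_lt_nat n).preimage Subtype.val_injective.injOn).subset fun p hp => not_le.1 hp

theorem residueUltra_charZero {U : Ultrafilter Nat.Primes}
    (hU : (U : Filter Nat.Primes) ≤ cofinite) : CharZero (ResidueUltra U) :=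
  ultraField_charZero fun n hn => (eventually_le_prime hU (n + 1)).mono fun p hp h => by
    have := (CharP.cast_eq_zero_iff (ZMod (p : ℕ)) (p : ℕ) n).1 h
    exact absurd (Nat.le_of_dvd (Nat.pos_of_ne_zero hn) this) (by omega)

variable {σ : Type} [Fintype σ]

theorem isHomogeneous_sum_monomial {R : Type*} [CommSemiring R] (d : ℕ) [DecidableEq σ]
    (c : (σ →₀ ℕ) → R) :
    (∑ e ∈ (Finset.univ : Finset σ).finsuppAntidiag d, MvPolynomial.monomial e (c e)).IsHomogeneous
      d :=
  MvPolynomial.IsHomogeneous.sum _ _ _ fun e he => MvPolynomial.isHomogeneous_monomial _ (by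
    rw [← (Finset.mem_finsuppAntidiag.1 he).1, Finsupp.degree_eq_sum])

theorem eq_sum_antidiag {R : Type*} [CommSemiring R] {d : ℕ} [DecidableEq σ]
    {f : MvPolynomial σ R} (hf : f.IsHomogeneous d) :
    f = ∑ e ∈ (Finset.univ : Finset σ).finsuppAntidiag d, MvPolynomial.monomial e (f.coeff e) := by
  conv_lhs => rw [f.as_sum]
  refine Finset.sum_subset (fun e he => Finset.mem_finsuppAntidiag.2 ⟨?_, Finset.subset_univ _⟩)
    fun e _ he => by rw [MvPolynomial.notMem_support_iff.1 he, map_zero]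
  rw [hf.degree_eq_sum_deg_support he, ← Finsupp.degree_eq_sum]
  rfl

/-- Forms over the ultraproduct of the `𝔽_p((t))` have zeros. -/
theorem exists_zero_laurentUltra (U : Ultrafilter Nat.Primes) {ι : Type} [Fintype ι]
    [DecidableEq σ] (d : ι → ℕ) (hd : ∀ l, 0 < d l) (hn : ∑ l, d l ^ 2 < Fintype.card σ)
    (b : ι → (σ →₀ ℕ) → LaurentUltra U) :
    ∃ z : σ → LaurentUltra U, z ≠ 0 ∧ ∀ l, MvPolynomial.eval z
      (∑ e ∈ (Finset.univ : Finset σ).finsuppAntidiag (d l),
        MvPolynomial.monomial e (b l e)) = 0 := by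
  choose b' hb' using fun l e => umk_surjective (b l e)
  let g : ι → MvPolynomial σ (Π p : Nat.Primes, LaurentSeries (ZMod p)) := fun l =>
    ∑ e ∈ (Finset.univ : Finset σ).finsuppAntidiag (d l), MvPolynomial.monomial e (b' l e)
  choose z hz hz0 using fun p : Nat.Primes =>
    LocalForms.formsC_laurentSeries (ZMod p) σ ι
      (fun l => MvPolynomial.map (Pi.evalRingHom _ p) (g l)) d
      (fun l => ⟨(isHomogeneous_sum_monomial _ _).map _, hd l⟩) hn
  refine ⟨fun j => umk U _ fun p => z p j, fun h => ?_, fun l => ?_⟩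
  · obtain ⟨p, hp⟩ := ((Filter.eventually_all).2 fun j => umk_eq_zero.1 (congrFun h j)).exists
    exact hz p (funext hp)
  · have e : MvPolynomial.map (umk U _) (g l) =
        ∑ e ∈ (Finset.univ : Finset σ).finsuppAntidiag (d l), MvPolynomial.monomial e (b l e) := by
      simp only [g, map_sum, MvPolynomial.map_monomial, hb']
    rw [← e, ← LocalForms.map_eval_hom (umk U _) (fun j p => z p j) (g l), umk_eq_zero]
    refine Eventually.of_forall fun p => ?_
    exact (LocalForms.map_eval_hom (Pi.evalRingHom (fun q : Nat.Primes => LaurentSeries (ZMod q)) p)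
      (fun j q => z q j) (g l)).trans (hz0 p l)

/-- **Ax–Kochen**: Artin's conjecture holds for all but finitely many `p`, for given degrees. -/
theorem finite_bad_primes {ι : Type} [Fintype ι] (d : ι → ℕ) (hd : ∀ l, 0 < d l)
    (hn : ∑ l, d l ^ 2 < Fintype.card σ) :
    {p : Nat.Primes | ∃ f : ι → MvPolynomial σ ℚ_[p], (∀ l, (f l).IsHomogeneous (d l)) ∧
      ∀ x : σ → ℚ_[p], (∀ l, MvPolynomial.eval x (f l) = 0) → x = 0}.Finite := by
  classical
  by_contra hinf
  set B := {p : Nat.Primes | ∃ f : ι → MvPolynomial σ ℚ_[p], (∀ l, (f l).IsHomogeneous (d l)) ∧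
      ∀ x : σ → ℚ_[p], (∀ l, MvPolynomial.eval x (f l) = 0) → x = 0}
  have : (cofinite ⊓ 𝓟 B).NeBot :=
    cofinite_inf_principal_neBot_iff.2 hinf
  set U := Ultrafilter.of (cofinite ⊓ 𝓟 B)
  have hU : (U : Filter Nat.Primes) ≤ cofinite := (Ultrafilter.of_le _).trans inf_le_left
  have hB : ∀ᶠ p in (U : Filter Nat.Primes), p ∈ B :=
    (Ultrafilter.of_le _).trans inf_le_right (mem_principal_self B)
  have := residueUltra_charZero hU
  set D := ultraData U fun p : Nat.Primes => padicLocalData p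
  set E := ultraData U fun p : Nat.Primes => laurentLocalData (ZMod p)
  have hv : HasPseudoLimits D.v := ultra_hasPseudoLimits (fun p => (p : ℕ)) (eventually_le_prime hU)
  have hw : HasPseudoLimits E.v := ultra_hasPseudoLimits (fun p => (p : ℕ)) (eventually_le_prime hU)
  let c : ι → (σ →₀ ℕ) → Π p : Nat.Primes, ℚ_[p] := fun l e p =>
    if h : p ∈ B then (h.choose l).coeff e else 0
  obtain ⟨P₀, hP₀⟩ := exists_isCountablePartial D E
  let S : Finset (PadicUltra U) := Finset.univ.biUnion fun l =>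
    ((Finset.univ : Finset σ).finsuppAntidiag (d l)).image fun e => umk U _ (c l e)
  obtain ⟨P₁, hP₁, -, hS⟩ := hP₀.forth_finset hw S
  have hpair : ∀ l e, ∃ y : LaurentUltra U, e ∈ (Finset.univ : Finset σ).finsuppAntidiag (d l) →
      (umk U _ (c l e), y) ∈ P₁ := fun l e => by
    by_cases he : e ∈ (Finset.univ : Finset σ).finsuppAntidiag (d l)
    · obtain ⟨y, hy⟩ := hS _ (Finset.mem_biUnion.2
        ⟨l, Finset.mem_univ _, Finset.mem_image.2 ⟨e, he, rfl⟩⟩)
      exact ⟨y, fun _ => hy⟩
    · exact ⟨0, fun h => absurd h he⟩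
  choose b hb using hpair
  obtain ⟨z, hz, hz0⟩ := exists_zero_laurentUltra U d hd hn b
  obtain ⟨P₂, hP₂, hle, hzP⟩ := hP₁.back_finset hv (Finset.univ.image z)
  choose x hx using fun j => hzP (z j) (Finset.mem_image_of_mem z (Finset.mem_univ j))
  let g : ι → MvPolynomial σ (Π p : Nat.Primes, ℚ_[p]) := fun l =>
    ∑ e ∈ (Finset.univ : Finset σ).finsuppAntidiag (d l), MvPolynomial.monomial e (c l e)
  have hx0 : ∀ l, MvPolynomial.eval x (MvPolynomial.map (umk U _) (g l)) = 0 := fun l => by
    set G : MvPolynomial σ (PadicUltra U × LaurentUltra U) :=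
      ∑ e ∈ (Finset.univ : Finset σ).finsuppAntidiag (d l),
        MvPolynomial.monomial e (umk U _ (c l e), b l e) with hG
    have hmem : MvPolynomial.eval (fun j => (x j, z j)) G ∈ P₂ := by
      rw [hG, map_sum]
      refine sum_mem fun e he => ?_
      rw [MvPolynomial.eval_monomial]
      exact mul_mem (hle (hb l e he)) (prod_mem fun j _ => pow_mem (hx j) _)
    have e1 : MvPolynomial.map (RingHom.fst (PadicUltra U) (LaurentUltra U)) G =
        MvPolynomial.map (umk U _) (g l) := by
      simp [hG, g, map_sum, MvPolynomial.map_monomial]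
    have e2 : MvPolynomial.map (RingHom.snd (PadicUltra U) (LaurentUltra U)) G =
        ∑ e ∈ (Finset.univ : Finset σ).finsuppAntidiag (d l),
          MvPolynomial.monomial e (b l e) := by
      simp [hG, map_sum, MvPolynomial.map_monomial]
    have h1 := LocalForms.map_eval_hom (RingHom.fst (PadicUltra U) (LaurentUltra U))
      (fun j => (x j, z j)) G
    have h2 := LocalForms.map_eval_hom (RingHom.snd (PadicUltra U) (LaurentUltra U))
      (fun j => (x j, z j)) G
    rw [e1] at h1
    rw [e2] at h2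
    exact h1.symm.trans ((hP₂.1.eq_zero_iff hmem).2 (h2.trans (hz0 l)))
  choose x' hx' using fun j => umk_surjective (x j)
  have hne : ∀ᶠ p in (U : Filter Nat.Primes), ∃ j, x' j p ≠ 0 := by
    obtain ⟨j, hj⟩ := Function.ne_iff.1 hz
    have : x j ≠ 0 := fun h => hj ((hP₂.1.eq_zero_iff (hx j)).1 h)
    rw [← hx', umk_ne_zero] at this
    exact this.mono fun p hp => ⟨j, hp⟩
  have hroot : ∀ᶠ p in (U : Filter Nat.Primes), ∀ l,
      MvPolynomial.eval (fun j => x' j p) (MvPolynomial.map (Pi.evalRingHom _ p) (g l)) = 0 :=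
    eventually_all.2 fun l => by
      have h : umk U (fun q : Nat.Primes => ℚ_[q]) (MvPolynomial.eval x' (g l)) = 0 := by
        rw [LocalForms.map_eval_hom, funext hx']
        exact hx0 l
      refine (umk_eq_zero.1 h).mono fun p hp => ?_
      have e := LocalForms.map_eval_hom (Pi.evalRingHom (fun q : Nat.Primes => ℚ_[q]) p) x' (g l)
      simp only [Pi.evalRingHom_apply] at e
      rw [← e, hp]
  obtain ⟨p, ⟨hpB, hp⟩, j, hj⟩ := ((hB.and hroot).and hne).exists
  refine hj (congrFun (hpB.choose_spec.2 (fun j => x' j p) fun l => ?_) j)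
  convert hp l using 2
  simp only [g, map_sum, MvPolynomial.map_monomial, Pi.evalRingHom_apply, c, dif_pos hpB]
  exact eq_sum_antidiag (hpB.choose_spec.1 l)

attribute [local instance] compatibleRingOfRing in
/-- **The transfer principle of Ax and Kochen.** -/
theorem finite_transfer_exceptions (φ : Language.ring.Sentence) :
    {p : Nat.Primes | ¬ (ℚ_[p] ⊨ φ ↔ LaurentSeries (ZMod p) ⊨ φ)}.Finite := by
  by_contra hinf
  set B := {p : Nat.Primes | ¬ (ℚ_[p] ⊨ φ ↔ LaurentSeries (ZMod p) ⊨ φ)}
  have : (cofinite ⊓ 𝓟 B).NeBot :=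
    cofinite_inf_principal_neBot_iff.2 hinf
  set U := Ultrafilter.of (cofinite ⊓ 𝓟 B)
  have hU : (U : Filter Nat.Primes) ≤ cofinite := (Ultrafilter.of_le _).trans inf_le_left
  have hB : ∀ᶠ p in (U : Filter Nat.Primes), p ∈ B :=
    (Ultrafilter.of_le _).trans inf_le_right (mem_principal_self B)
  have := residueUltra_charZero hU
  set D := ultraData U fun p : Nat.Primes => padicLocalData p
  set E := ultraData U fun p : Nat.Primes => laurentLocalData (ZMod p)
  have hv : HasPseudoLimits D.v := ultra_hasPseudoLimits (fun p => (p : ℕ)) (eventually_le_prime hU)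
  have hw : HasPseudoLimits E.v := ultra_hasPseudoLimits (fun p => (p : ℕ)) (eventually_le_prime hU)
  obtain ⟨P, hP⟩ := exists_isCountablePartial D E
  have h1 := sentence_ultra (U := U) (F := fun p : Nat.Primes => ℚ_[p]) φ
  have h2 := sentence_ultra (U := U) (F := fun p : Nat.Primes => LaurentSeries (ZMod p)) φ
  have h : PadicUltra U ⊨ φ ↔ LaurentUltra U ⊨ φ :=
    (sentence_realize_iff φ _ _).trans
      ((realize_iff_of_partial hv hw φ hP default default fun i => i.elim0).trans
        (sentence_realize_iff φ _ _).symm)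
  rw [h1, h2] at h
  rcases U.em fun p : Nat.Primes => ℚ_[p] ⊨ φ with hh | hh
  · obtain ⟨p, ⟨hp1, hp2⟩, hp3⟩ := ((hh.and (h.1 hh)).and hB).exists
    exact hp3 ⟨fun _ => hp2, fun _ => hp1⟩
  · have hh' : ∀ᶠ p : Nat.Primes in (U : Filter Nat.Primes), ¬ LaurentSeries (ZMod p) ⊨ φ :=
      Ultrafilter.eventually_not.2 fun hl => Ultrafilter.eventually_not.1 hh (h.2 hl)
    obtain ⟨p, ⟨hp1, hp2⟩, hp3⟩ := ((hh.and hh').and hB).exists
    exact hp3 ⟨fun a => absurd a hp1, fun a => absurd a hp2⟩

end Fermat.Agent.AxKochen
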