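import Fermat.Agent.AxKochen.Basic
import Mathlib.Algebra.Field.Subfield.Basic

/-!
# Partial isomorphisms of valued fields

A partial isomorphism is given by its graph, a subring of `K × L` on which the two valuations
agree.
-/

set_option autoImplicit false

noncomputable section

namespace Fermat.Agent.AxKochen

universe u v w

variable {K L : Type u} {k : Type v} {Γ : Type w} [Field K] [Field L] [Field k] [AddCommGroup Γ]
  [LinearOrder Γ] [IsOrderedAddMonoid Γ] (D : HenselData K k Γ) (E : HenselData L k Γ)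

/-- The valuations agree on the graph. -/
def Compat (P : Subring (K × L)) : Prop :=
  ∀ p ∈ P, D.v p.1 = E.v p.2

/-- The graph is a field. -/
def InvClosed (P : Subring (K × L)) : Prop :=
  ∀ p ∈ P, p⁻¹ ∈ P

/-- The graph respects the coefficient fields and the cross-sections. -/
def Skel (P : Subring (K × L)) : Prop :=
  (∀ p ∈ P, ∀ γ : Γ, D.v p.1 = γ → (D.s γ, E.s γ) ∈ P) ∧
    ∀ p ∈ P, D.v p.1 = 0 → ∃ c, 0 < D.v (p.1 - D.ι c) ∧ (D.ι c, E.ι c) ∈ P

variable {D E} {P : Subring (K × L)}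

theorem Compat.eq_zero_iff (hP : Compat D E P) {p : K × L} (hp : p ∈ P) :
    p.1 = 0 ↔ p.2 = 0 := by
  rw [← D.v.top_iff, ← E.v.top_iff, hP p hp]

theorem Compat.snd_eq (hP : Compat D E P) {p q : K × L} (hp : p ∈ P) (hq : q ∈ P)
    (h : p.1 = q.1) : p.2 = q.2 :=
  sub_eq_zero.1 ((hP.eq_zero_iff (sub_mem hp hq)).1 (by simp [h]))

theorem Compat.fst_eq (hP : Compat D E P) {p q : K × L} (hp : p ∈ P) (hq : q ∈ P)
    (h : p.2 = q.2) : p.1 = q.1 :=
  sub_eq_zero.1 ((hP.eq_zero_iff (sub_mem hp hq)).2 (by simp [h]))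

/-- Quotients of pairs in the graph. -/
def fracClosure (P : Subring (K × L)) (hP : Compat D E P) : Subring (K × L) where
  carrier := {q | ∃ a ∈ P, ∃ b ∈ P, b.1 ≠ 0 ∧ q = a / b}
  one_mem' := ⟨1, P.one_mem, 1, P.one_mem, one_ne_zero, by simp⟩
  zero_mem' := ⟨0, P.zero_mem, 1, P.one_mem, one_ne_zero, by simp⟩
  mul_mem' := by
    rintro _ _ ⟨a, ha, b, hb, hb0, rfl⟩ ⟨c, hc, d, hd, hd0, rfl⟩
    exact ⟨a * c, mul_mem ha hc, b * d, mul_mem hb hd, mul_ne_zero hb0 hd0,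
      div_mul_div_comm a b c d⟩
  neg_mem' := by
    rintro _ ⟨a, ha, b, hb, hb0, rfl⟩
    refine ⟨-a, neg_mem ha, b, hb, hb0, ?_⟩
    ext <;> simp [neg_div]
  add_mem' := by
    rintro _ _ ⟨a, ha, b, hb, hb0, rfl⟩ ⟨c, hc, d, hd, hd0, rfl⟩
    refine ⟨a * d + c * b, add_mem (mul_mem ha hd) (mul_mem hc hb), b * d, mul_mem hb hd,
      mul_ne_zero hb0 hd0, ?_⟩
    have hb2 := fun h => hb0 ((hP.eq_zero_iff hb).2 h)
    have hd2 := fun h => hd0 ((hP.eq_zero_iff hd).2 h)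
    ext
    · simp only [Prod.fst_add, Prod.fst_div, Prod.fst_mul]
      rw [div_add_div _ _ hb0 hd0, mul_comm c.1]
    · simp only [Prod.snd_add, Prod.snd_div, Prod.snd_mul]
      rw [div_add_div _ _ hb2 hd2, mul_comm c.2]

theorem Compat.frac (hP : Compat D E P) :
    Compat D E (fracClosure P hP) ∧ InvClosed (fracClosure P hP) ∧ P ≤ fracClosure P hP := by
  refine ⟨?_, ?_, fun p hp => ⟨p, hp, 1, P.one_mem, one_ne_zero, by simp⟩⟩
  · rintro _ ⟨a, ha, b, hb, -, rfl⟩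
    rw [Prod.fst_div, Prod.snd_div, D.v.map_div, E.v.map_div, hP a ha, hP b hb]
  · rintro _ ⟨a, ha, b, hb, hb0, rfl⟩
    by_cases ha0 : a.1 = 0
    · refine ⟨0, P.zero_mem, 1, P.one_mem, one_ne_zero, ?_⟩
      ext <;> simp [ha0, (hP.eq_zero_iff ha).1 ha0]
    · exact ⟨b, hb, a, ha, ha0, by ext <;> simp [inv_div]⟩

/-- The domain of a partial isomorphism. -/
def domField (P : Subring (K × L)) (hP : InvClosed P) : Subfield K where
  toSubring := P.map (RingHom.fst K L)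
  inv_mem' := by
    rintro _ ⟨p, hp, rfl⟩
    exact ⟨p⁻¹, hP p hp, Prod.fst_inv p⟩

theorem mem_domField {hP : InvClosed P} {x : K} : x ∈ domField P hP ↔ ∃ y, (x, y) ∈ P := by
  refine ⟨fun ⟨p, hp, e⟩ => ⟨p.2, e ▸ hp⟩, fun ⟨y, hy⟩ => ⟨(x, y), hy, rfl⟩⟩

theorem Compat.existsUnique_snd (hP : Compat D E P) {hI : InvClosed P} (a : domField P hI) :
    ∃! y, ((a : K), y) ∈ P := by
  obtain ⟨y, hy⟩ := mem_domField.1 a.2
  exact ⟨y, hy, fun z hz => hP.snd_eq hz hy rfl⟩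

/-- The embedding given by a partial isomorphism. -/
def Compat.toHom (hP : Compat D E P) (hI : InvClosed P) : domField P hI →+* L where
  toFun a := (hP.existsUnique_snd a).choose
  map_one' := hP.snd_eq (hP.existsUnique_snd 1).choose_spec.1 P.one_mem rfl
  map_zero' := hP.snd_eq (hP.existsUnique_snd 0).choose_spec.1 P.zero_mem rfl
  map_mul' a b := hP.snd_eq (hP.existsUnique_snd (a * b)).choose_spec.1
    (mul_mem (hP.existsUnique_snd a).choose_spec.1 (hP.existsUnique_snd b).choose_spec.1) rfl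
  map_add' a b := hP.snd_eq (hP.existsUnique_snd (a + b)).choose_spec.1
    (add_mem (hP.existsUnique_snd a).choose_spec.1 (hP.existsUnique_snd b).choose_spec.1) rfl

theorem Compat.toHom_spec (hP : Compat D E P) {hI : InvClosed P} (a : domField P hI) :
    ((a : K), hP.toHom hI a) ∈ P :=
  (hP.existsUnique_snd a).choose_spec.1

/-- The inverse partial isomorphism. -/
def flipGraph (P : Subring (K × L)) : Subring (L × K) :=
  P.comap (RingEquiv.prodComm (R := L) (S := K)).toRingHom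

theorem mem_flipGraph {p : L × K} : p ∈ flipGraph P ↔ (p.2, p.1) ∈ P :=
  Iff.rfl

theorem flip_graph (hP : Compat D E P) (hI : InvClosed P) (hS : Skel D E P) :
    Compat E D (flipGraph P) ∧ InvClosed (flipGraph P) ∧ Skel E D (flipGraph P) := by
  refine ⟨fun p hp => (hP _ hp).symm, fun p hp => hI _ hp, fun p hp γ hγ => ?_, fun p hp h0 => ?_⟩
  · exact hS.1 _ hp γ ((hP _ hp).trans hγ)
  · obtain ⟨c, hc, hcP⟩ := hS.2 _ hp ((hP _ hp).trans h0)
    refine ⟨c, ?_, hcP⟩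
    rw [show p.1 - E.ι c = ((p.2, p.1) - (D.ι c, E.ι c) : K × L).2 from rfl,
      ← hP _ (sub_mem (show (p.2, p.1) ∈ P from hp) hcP)]
    exact hc

variable (D E)

/-- The graph of the prime field. -/
theorem exists_start [CharZero k] [CharZero K] [CharZero L] :
    ∃ P : Subring (K × L), Compat D E P ∧ InvClosed P ∧ Skel D E P ∧
      ∀ p ∈ P, p.1 ∈ (Rat.castHom K).fieldRange := by
  let g : ℚ →+* K × L := (Rat.castHom K).prod (Rat.castHom L)
  have hι : ∀ q : ℚ, g q = (D.ι (q : k), E.ι (q : k)) := fun q => by simp [g]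
  have h0 : ∀ q : ℚ, q ≠ 0 → D.v (g q).1 = 0 ∧ E.v (g q).2 = 0 := fun q hq => by
    rw [hι]
    exact ⟨D.v_ι _ (Rat.cast_ne_zero.2 hq), E.v_ι _ (Rat.cast_ne_zero.2 hq)⟩
  refine ⟨g.range, ?_, ?_, ⟨?_, ?_⟩, ?_⟩
  · rintro _ ⟨q, rfl⟩
    by_cases hq : q = 0
    · simp [hq]
    · rw [(h0 q hq).1, (h0 q hq).2]
  · rintro _ ⟨q, rfl⟩
    exact ⟨q⁻¹, by ext <;> simp [g]⟩
  · rintro _ ⟨q, rfl⟩ γ hγ
    by_cases hq : q = 0
    · simp [hq] at hγ
    · rw [(h0 q hq).1, ← WithTop.coe_zero, WithTop.coe_inj] at hγ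
      rw [← hγ, D.s_zero, E.s_zero]
      exact ⟨1, map_one g⟩
  · rintro _ ⟨q, rfl⟩ -
    refine ⟨q, ?_, ⟨q, hι q⟩⟩
    rw [hι, sub_self, D.v.map_zero]
    exact WithTop.coe_lt_top _
  · rintro _ ⟨q, rfl⟩
    exact ⟨q, rfl⟩

end Fermat.Agent.AxKochen
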